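/-
S32 half, file A (helper246): the `p`-adic polynomial Hecke ring of an `ESData` and its map to the
coefficient ring `T` of a `HeckeGaloisRepDatum`.

* `R := MvPolynomial (Idx N S) ℤ_[p]` acts on `ℤ_[p]^r` through the Hecke matrices (`mpp`), and maps
  to `T` (`pip`, sending `X_ℓ` to `H.π T_ℓ`).
* `exists_sat` : the `p`-adic saturation bound — if `Q(t) ≡ 0` modulo `p ^ (n + k)` then
  `pip Q ∈ p ^ n T` (Artin–Rees on the integral Hecke algebra, as in `S31/Glue`).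
* `pip_eq_zero_of_mpp_eq_zero` : relations among the Hecke matrices with `p`-adic coefficients hold
  in `T` (no flatness argument: saturation bound + Krull).
-/
import Mathlib
import Fermat.Prelude.Def_CuspForm_HeckeGaloisRepDatum
import Fermat.Agent.S30.Defs
import Fermat.Agent.S31.Glue

set_option autoImplicit false

noncomputable section

namespace Fermat.Agent.S32.HeckeRing

open Fermat.Agent.S30 Fermat.Agent.S31.Glue IsLocalRing

section Matrices

variable {N p : ℕ} [NeZero N] [Fact p.Prime] (D : ESData N p) (S : Finset ℕ)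

/-- The `p`-adic Hecke matrices. -/
def tp (i : Idx N S) : Matrix (Fin D.r) (Fin D.r) ℤ_[p] :=
  (D.t i.1).map (Int.castRingHom ℤ_[p])

theorem tp_comm (i j : Idx N S) : tp D S i * tp D S j = tp D S j * tp D S i := by
  unfold tp
  rw [← Matrix.map_mul, ← Matrix.map_mul, (D.t_comm i.1 j.1).eq]

/-- The commutative `ℤ_[p]`-algebra generated by the Hecke matrices `t_ℓ`, `ℓ ∉ S`. -/
def Rp : Subalgebra ℤ_[p] (Matrix (Fin D.r) (Fin D.r) ℤ_[p]) :=
  Algebra.adjoin ℤ_[p] (Set.range (tp D S))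

instance instIsMulCommutativeRp : IsMulCommutative (Rp D S) :=
  Algebra.isMulCommutative_adjoin ℤ_[p] (by
    rintro _ ⟨i, rfl⟩ _ ⟨j, rfl⟩
    exact tp_comm D S i j)

open scoped IsMulCommutative in
instance instCommRingRp : CommRing (Rp D S) := inferInstance

/-- Evaluation of `p`-adic polynomials at the Hecke matrices. -/
def ap : MvPolynomial (Idx N S) ℤ_[p] →ₐ[ℤ_[p]] Rp D S :=
  MvPolynomial.aeval fun i => ⟨tp D S i, Algebra.subset_adjoin ⟨i, rfl⟩⟩

/-- `ap` as a ring hom into `p`-adic matrices. -/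
def mpp : MvPolynomial (Idx N S) ℤ_[p] →+* Matrix (Fin D.r) (Fin D.r) ℤ_[p] :=
  (Rp D S).val.toRingHom.comp (ap D S).toRingHom

theorem mpp_X (i : Idx N S) : mpp D S (MvPolynomial.X i) = tp D S i := by
  simp [mpp, ap]

theorem mpp_C (a : ℤ_[p]) :
    mpp D S (MvPolynomial.C a) = algebraMap ℤ_[p] (Matrix (Fin D.r) (Fin D.r) ℤ_[p]) a := by
  simp [mpp, ap, ← MvPolynomial.algebraMap_eq]

theorem mpp_mem (Q : MvPolynomial (Idx N S) ℤ_[p]) : mpp D S Q ∈ Rp D S := (ap D S Q).2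

theorem mpp_surjective {x : Matrix (Fin D.r) (Fin D.r) ℤ_[p]} (hx : x ∈ Rp D S) :
    ∃ Q : MvPolynomial (Idx N S) ℤ_[p], mpp D S Q = x := by
  induction hx using Algebra.adjoin_induction with
  | mem x hx =>
    obtain ⟨i, rfl⟩ := hx
    exact ⟨MvPolynomial.X i, mpp_X D S i⟩
  | algebraMap r => exact ⟨MvPolynomial.C r, mpp_C D S r⟩
  | add x y _ _ hx hy =>
    obtain ⟨Q, rfl⟩ := hx
    obtain ⟨Q', rfl⟩ := hy
    exact ⟨Q + Q', map_add _ _ _⟩
  | mul x y _ _ hx hy =>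
    obtain ⟨Q, rfl⟩ := hx
    obtain ⟨Q', rfl⟩ := hy
    exact ⟨Q * Q', map_mul _ _ _⟩

/-- Compatibility with the integral polynomials of `S31/Glue`. -/
theorem mpp_map (Q₀ : MvPolynomial (Idx N S) ℤ) :
    mpp D S (MvPolynomial.map (Int.castRingHom ℤ_[p]) Q₀) = mp D S Q₀ := by
  have h : (mpp D S).comp (MvPolynomial.map (Int.castRingHom ℤ_[p])) = mp D S := by
    refine MvPolynomial.ringHom_ext' (RingHom.ext_int _ _) fun i => ?_
    rw [RingHom.comp_apply, MvPolynomial.map_X, mpp_X, mp_X]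
    rfl
  exact RingHom.congr_fun h Q₀

omit [NeZero N] in
/-- Every `p`-adic polynomial is an integral polynomial modulo `p ^ m`. -/
theorem exists_decomp (m : ℕ) (Q : MvPolynomial (Idx N S) ℤ_[p]) :
    ∃ (Q₀ : MvPolynomial (Idx N S) ℤ) (Q₁ : MvPolynomial (Idx N S) ℤ_[p]),
      Q = MvPolynomial.map (Int.castRingHom ℤ_[p]) Q₀
        + MvPolynomial.C ((p : ℤ_[p]) ^ m) * Q₁ := by
  induction Q using MvPolynomial.induction_on with
  | C a =>
    obtain ⟨c, hc⟩ := Ideal.mem_span_singleton.mp (PadicInt.appr_spec m a)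
    refine ⟨MvPolynomial.C ((PadicInt.appr a m : ℕ) : ℤ), MvPolynomial.C c, ?_⟩
    rw [MvPolynomial.map_C, ← map_mul, ← map_add, ← hc]
    congr 1
    simp
  | add P Q hP hQ =>
    obtain ⟨P₀, P₁, hP⟩ := hP
    obtain ⟨Q₀, Q₁, hQ⟩ := hQ
    refine ⟨P₀ + Q₀, P₁ + Q₁, ?_⟩
    rw [map_add, mul_add]
    conv_lhs => rw [hP, hQ]
    abel
  | mul_X P i hP =>
    obtain ⟨P₀, P₁, hP⟩ := hP
    refine ⟨P₀ * MvPolynomial.X i, P₁ * MvPolynomial.X i, ?_⟩
    rw [map_mul, MvPolynomial.map_X]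
    conv_lhs => rw [hP]
    ring

/-- Artin–Rees for the integral Hecke algebra, in polynomial form: an integral polynomial whose
Hecke matrix is divisible by `p ^ (n + k)` has Hecke operator divisible by `p ^ n`. -/
theorem exists_poly_of_dvd (hpS : p ∈ S) : ∃ k : ℕ, ∀ (n : ℕ) (P : MvPolynomial (Idx N S) ℤ),
    (∀ i j, ((p : ℤ) ^ (n + k)) ∣ m1 D S P i j) →
      ∃ Q : MvPolynomial (Idx N S) ℤ,
        a2 (N := N) S P = (p : CuspForm.heckeAlgebra N 2 (↑S : Set ℕ)) ^ n * a2 (N := N) S Q := by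
  obtain ⟨k, hk⟩ := Ideal.exists_pow_inf_eq_pow_smul (Ideal.span {(p : ℤ)})
    (Subalgebra.toSubmodule (Rt D S))
  refine ⟨k, fun n P hentry => ?_⟩
  have hd1 : m1 D S P ∈ Ideal.span {(p : ℤ)} ^ (n + k) •
      (⊤ : Submodule ℤ (Matrix (Fin D.r) (Fin D.r) ℤ)) := by
    have h1 : m1 D S P = ((p : ℤ) ^ (n + k)) •
        (Matrix.of fun i j => m1 D S P i j / (p : ℤ) ^ (n + k)) := by
      ext i j
      rw [Matrix.smul_apply, Matrix.of_apply, smul_eq_mul]
      exact (Int.mul_ediv_cancel' (hentry i j)).symm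
    rw [h1]
    exact Submodule.smul_mem_smul (Ideal.pow_mem_pow (Ideal.mem_span_singleton_self _) _)
      Submodule.mem_top
  have hd2 : m1 D S P ∈ Ideal.span {(p : ℤ)} ^ n • Subalgebra.toSubmodule (Rt D S) := by
    have h1 : m1 D S P ∈ Ideal.span {(p : ℤ)} ^ (n + k) •
        (⊤ : Submodule ℤ (Matrix (Fin D.r) (Fin D.r) ℤ)) ⊓ Subalgebra.toSubmodule (Rt D S) :=
      ⟨hd1, m1_mem D S _⟩
    rw [hk (n + k) (Nat.le_add_left k n), Nat.add_sub_cancel] at h1
    exact Submodule.smul_mono le_rfl inf_le_right h1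
  rw [Ideal.span_singleton_pow, Submodule.ideal_span_singleton_smul] at hd2
  obtain ⟨e, he, hed⟩ := (Submodule.mem_smul_pointwise_iff_exists _ _ _).mp hd2
  obtain ⟨Q, hQ⟩ := m1_surjective D S he
  refine ⟨Q, ?_⟩
  have h0 : a1 D S (P - (p : MvPolynomial (Idx N S) ℤ) ^ n * Q) = 0 := by
    rw [← m1_eq_zero_iff, map_sub, map_mul, map_pow, map_natCast, hQ, ← hed, zsmul_eq_mul]
    push_cast
    exact sub_self _
  have h2 := a2_eq_zero_of_a1_eq_zero D S hpS _ h0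
  rw [map_sub, map_mul, map_pow, map_natCast, sub_eq_zero] at h2
  exact h2

end Matrices

section Datum

variable {N p : ℕ} [NeZero N] [Fact p.Prime] (D : ESData N p) {S : Finset ℕ}
  {𝒪 : Type} [CommRing 𝒪] [IsDomain 𝒪] [IsDiscreteValuationRing 𝒪]
  [IsAdicComplete (IsLocalRing.maximalIdeal 𝒪) 𝒪]
  {θ : CuspForm.heckeAlgebra N 2 (↑S : Set ℕ) →+* IsLocalRing.ResidueField 𝒪}
  {T : Type} [CommRing T] [IsLocalRing T] [IsNoetherianRing T]
  [IsAdicComplete (IsLocalRing.maximalIdeal T) T] [Algebra 𝒪 T] [IsLocalHom (algebraMap 𝒪 T)]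
  [Module.Finite 𝒪 T] [Module.Free 𝒪 T]
  (H : CuspForm.HeckeGaloisRepDatum N (↑S : Set ℕ) 𝒪 θ T) (ι : ℤ_[p] →+* T)

/-- The map from the `p`-adic polynomial Hecke ring to `T`. -/
def pip : MvPolynomial (Idx N S) ℤ_[p] →+* T :=
  MvPolynomial.eval₂Hom ι fun i => H.π (CuspForm.heckeAlgebra.T i.2.1 i.2.2.1 i.2.2.2)

theorem pip_X (i : Idx N S) :
    pip H ι (MvPolynomial.X i) = H.π (CuspForm.heckeAlgebra.T i.2.1 i.2.2.1 i.2.2.2) := by
  simp [pip]

theorem pip_C (a : ℤ_[p]) : pip H ι (MvPolynomial.C a) = ι a := by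
  simp [pip]

/-- Compatibility with the integral polynomials. -/
theorem pip_map (Q₀ : MvPolynomial (Idx N S) ℤ) :
    pip H ι (MvPolynomial.map (Int.castRingHom ℤ_[p]) Q₀) = H.π (a2 (N := N) S Q₀) := by
  have h : (pip H ι).comp (MvPolynomial.map (Int.castRingHom ℤ_[p])) =
      H.π.comp (a2 (N := N) S).toRingHom := by
    refine MvPolynomial.ringHom_ext' (RingHom.ext_int _ _) fun i => ?_
    rw [RingHom.comp_apply, MvPolynomial.map_X, pip_X]
    simp [a2]
  exact RingHom.congr_fun h Q₀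

/-- **The `p`-adic saturation bound.** -/
theorem exists_sat (hpS : p ∈ S) : ∃ k : ℕ, ∀ (n : ℕ) (Q : MvPolynomial (Idx N S) ℤ_[p]),
    (∀ i j, mpp D S Q i j ∈ Ideal.span {(p : ℤ_[p]) ^ (n + k)}) →
      ∃ y : T, pip H ι Q = (p : T) ^ n * y := by
  obtain ⟨k, hk⟩ := exists_poly_of_dvd D S hpS
  refine ⟨k, fun n Q hQ => ?_⟩
  obtain ⟨Q₀, Q₁, hdec⟩ := exists_decomp (N := N) S (n + k) Q
  have hentry : ∀ i j, ((p : ℤ) ^ (n + k)) ∣ m1 D S Q₀ i j := by
    intro i j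
    have h1 : mp D S Q₀ = mpp D S Q - mpp D S (MvPolynomial.C ((p : ℤ_[p]) ^ (n + k)) * Q₁) := by
      rw [← mpp_map, ← map_sub, hdec, add_sub_cancel_right]
    have h2 : mp D S Q₀ i j ∈ Ideal.span {(p : ℤ_[p]) ^ (n + k)} := by
      rw [h1, Matrix.sub_apply]
      refine Ideal.sub_mem _ (hQ i j) ?_
      rw [map_mul, mpp_C, Algebra.algebraMap_eq_smul_one, smul_mul_assoc, one_mul,
        Matrix.smul_apply, smul_eq_mul]
      exact Ideal.mul_mem_right _ _ (Ideal.mem_span_singleton_self _)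
    rw [Ideal.mem_span_singleton, mp_apply, PadicInt.pow_p_dvd_int_iff] at h2
    exact h2
  obtain ⟨Q', hQ'⟩ := hk n Q₀ hentry
  refine ⟨H.π (a2 (N := N) S Q') + (p : T) ^ k * pip H ι Q₁, ?_⟩
  rw [hdec, map_add, pip_map, hQ', map_mul, map_mul, map_pow, map_natCast, pip_C, map_pow,
    map_natCast, pow_add]
  ring

/-- Relations with `p`-adic coefficients among the Hecke matrices hold in `T`. -/
theorem pip_eq_zero_of_mpp_eq_zero (hpS : p ∈ S) (hpT : (p : T) ∈ maximalIdeal T)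
    (Q : MvPolynomial (Idx N S) ℤ_[p]) (h : mpp D S Q = 0) : pip H ι Q = 0 := by
  obtain ⟨k, hk⟩ := exists_sat D H ι hpS
  have hmem : pip H ι Q ∈ ⨅ n : ℕ, maximalIdeal T ^ n := by
    refine (Ideal.mem_iInf).mpr fun n => ?_
    obtain ⟨y, hy⟩ := hk n Q (fun i j => by rw [h]; exact Ideal.zero_mem _)
    rw [hy]
    exact Ideal.mul_mem_right _ _ (Ideal.pow_mem_pow hpT n)
  rw [Ideal.iInf_pow_eq_bot_of_isLocalRing (maximalIdeal T) Ideal.IsPrime.ne_top'] at hmem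
  exact hmem

end Datum

end Fermat.Agent.S32.HeckeRing
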