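/-
S32 half, file B (helper246): the matrix `τ_D(g) = ρ_D(g) + ε(g) ρ_D(g⁻¹)` of an `ESData` lies in
the `p`-adic Hecke ring `Rp`, and any polynomial representing it maps to `tr H.ρ(g)` in `T`.

* `mem_Rp_of_approx` : `Rp` is `p`-adically closed in the matrix ring (Krull).
* `approx_lat` : `τ_D(g)` is, modulo `p ^ m`, the Lucas polynomial `V_b(t_ℓ, ℓ)` of a Frobenius
  power agreeing with `g` on a finite level (Eichler–Shimura + Frobenius density + cyclotomic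
  character).
* `approx` : the same polynomial computes `tr H.ρ(g)` modulo `𝔪 ^ n`.
* `tauD_mem`, `exists_tau`, `pip_eq_trace`.
-/
import Mathlib
import Fermat.Prelude.Def_CuspForm_HeckeGaloisRepDatum
import Fermat.Agent.S30.Defs
import Fermat.Agent.S30.CycloChar
import Fermat.Agent.S31.Glue
import Fermat.Agent.S32.HeckeRing

set_option autoImplicit false

noncomputable section

namespace Fermat.Agent.S32.Tau

open Fermat.Agent.S30 Fermat.Agent.S31.Glue Fermat.Agent.S31.Lucas Fermat.Agent.S32.HeckeRing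
  IsLocalRing

section Lattice

variable {N p : ℕ} [NeZero N] [Fact p.Prime] (D : ESData N p) (S : Finset ℕ)

/-- `Rp` is `p`-adically closed in the matrix ring. -/
theorem mem_Rp_of_approx (x : Matrix (Fin D.r) (Fin D.r) ℤ_[p])
    (h : ∀ m : ℕ, ∃ y ∈ Rp D S, ∀ i j, (x - y) i j ∈ Ideal.span {(p : ℤ_[p]) ^ m}) :
    x ∈ Rp D S := by
  set M : Submodule ℤ_[p] (Matrix (Fin D.r) (Fin D.r) ℤ_[p]) :=
    Subalgebra.toSubmodule (Rp D S) with hM
  have hmem : M.mkQ x ∈ (⨅ i : ℕ, (Ideal.span {(p : ℤ_[p])}) ^ i •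
      (⊤ : Submodule ℤ_[p] (Matrix (Fin D.r) (Fin D.r) ℤ_[p] ⧸ M))) := by
    refine (Submodule.mem_iInf _).mpr fun m => ?_
    obtain ⟨y, hy, hxy⟩ := h m
    have hz : ∃ z : Matrix (Fin D.r) (Fin D.r) ℤ_[p], x - y = ((p : ℤ_[p]) ^ m) • z := by
      choose c hc using fun i j => Ideal.mem_span_singleton'.mp (hxy i j)
      refine ⟨Matrix.of c, ?_⟩
      ext i j
      rw [Matrix.smul_apply, Matrix.of_apply, smul_eq_mul, mul_comm, hc]
    obtain ⟨z, hz⟩ := hz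
    have h1 : M.mkQ x = ((p : ℤ_[p]) ^ m) • M.mkQ z := by
      rw [← map_smul, ← hz, map_sub]
      have h0 : M.mkQ y = 0 := by
        rw [Submodule.mkQ_apply, Submodule.Quotient.mk_eq_zero]
        exact hy
      rw [h0, sub_zero]
    rw [h1]
    exact Submodule.smul_mem_smul (Ideal.pow_mem_pow (Ideal.mem_span_singleton_self _) m)
      Submodule.mem_top
  have hne : Ideal.span {(p : ℤ_[p])} ≠ ⊤ := by
    rw [Ne, Ideal.span_singleton_eq_top]
    exact PadicInt.p_nonunit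
  rw [Ideal.iInf_pow_smul_eq_bot_of_isLocalRing _ hne, Submodule.mem_bot, Submodule.mkQ_apply,
    Submodule.Quotient.mk_eq_zero] at hmem
  exact hmem

/-- The matrix `τ_D(g) = ρ_D(g) + ε(g) ρ_D(g⁻¹)`. -/
def tauD (g : GQ) : Matrix (Fin D.r) (Fin D.r) ℤ_[p] :=
  D.ρ g + ((CycloChar.eps p g : ℤ_[p]ˣ) : ℤ_[p]) • D.ρ g⁻¹

theorem red_eq_zero_iff (m : ℕ) (X : Matrix (Fin D.r) (Fin D.r) ℤ_[p]) :
    red D m X = 0 ↔ ∀ i j, X i j ∈ Ideal.span {(p : ℤ_[p]) ^ m} := by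
  constructor
  · intro h i j
    have := congrFun (congrFun h i) j
    rw [red, RingHom.mapMatrix_apply, Matrix.map_apply, Matrix.zero_apply,
      Ideal.Quotient.eq_zero_iff_mem] at this
    exact this
  · intro h
    ext i j
    rw [red, RingHom.mapMatrix_apply, Matrix.map_apply, Matrix.zero_apply,
      Ideal.Quotient.eq_zero_iff_mem]
    exact h i j

/-- **Lattice side.** Modulo `p ^ m`, `τ_D(g)` is the Lucas polynomial of a Frobenius power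
agreeing with `g` on any prescribed finite level `L₀`. -/
theorem approx_lat (hdens : FrobDensity) (hpS : p ∈ S)
    (hNS : ∀ q : ℕ, q.Prime → q ∣ N → q ∈ S) (g : GQ) (m : ℕ)
    (L₀ : IntermediateField ℚ (AlgebraicClosure ℚ)) [FiniteDimensional ℚ L₀] :
    ∃ (i : Idx N S) (A : ValuationSubring (AlgebraicClosure ℚ)) (s : GQ) (b : ℕ),
      A.LiesOverPrime i.1 ∧ A.IsFrobeniusAt s i.1 ∧ (∀ x ∈ L₀, (s ^ b) x = g x) ∧
      ∀ i' j', (tauD D g - mp D S (lucasV (MvPolynomial.X i)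
        (i.1 : MvPolynomial (Idx N S) ℤ) b)) i' j' ∈ Ideal.span {(p : ℤ_[p]) ^ m} := by
  obtain ⟨L₁, hL₁fd, hL₁⟩ := D.cont m
  let L₃ : IntermediateField ℚ (AlgebraicClosure ℚ) := CycloChar.cycloField p m
  have hL₃fd : FiniteDimensional ℚ L₃ := CycloChar.finiteDimensional_cycloField p m
  have := hL₁fd
  let L : IntermediateField ℚ (AlgebraicClosure ℚ) := L₁ ⊔ L₀ ⊔ L₃
  have hL₁L : L₁ ≤ L := le_sup_left.trans le_sup_left
  have hL₀L : L₀ ≤ L := le_sup_right.trans le_sup_left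
  have hL₃L : L₃ ≤ L := le_sup_right
  obtain ⟨ℓ, A, s, b, hℓ, hℓS, hA, hs, -, hg⟩ := hdens L S g
  have hℓp : ℓ ≠ p := fun h => hℓS (h ▸ hpS)
  let i : Idx N S := ⟨ℓ, hℓ, fun h => hℓS (hNS ℓ hℓ h), fun h => hℓS (Finset.mem_coe.mp h)⟩
  refine ⟨i, A, s, b, hA, hs, fun x hx => hg x (hL₀L hx), ?_⟩
  set P : MvPolynomial (Idx N S) ℤ :=
    lucasV (MvPolynomial.X i) (i.1 : MvPolynomial (Idx N S) ℤ) b with hP
  have hV := vside D S m L₁ hL₁ hpS i A hA s hs b g (fun x hx => hg x (hL₁L hx))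
  rw [← hP] at hV
  have hYY' : red D m (D.ρ g) * red D m (D.ρ g⁻¹) = 1 := by
    rw [← map_mul, ← map_mul, mul_inv_cancel, map_one, map_one]
  have hε := CycloChar.eps_pow_frobenius p m hℓ hℓp A hA s hs g b
    (fun x hx => (hg x (hL₃L hx)).symm)
  have hZ : red D m (D.ρ g + ((ℓ ^ b : ℕ) : Matrix (Fin D.r) (Fin D.r) ℤ_[p]) * D.ρ g⁻¹
      - mp D S P) = 0 := by
    rw [map_sub, map_add, map_mul, map_natCast]
    have h1 : red D m (D.ρ g) + ((ℓ ^ b : ℕ) : Matrix (Fin D.r) (Fin D.r) (Qn p m))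
          * red D m (D.ρ g⁻¹) - red D m (mp D S P)
        = (red D m (D.ρ g) * red D m (D.ρ g) - red D m (mp D S P) * red D m (D.ρ g)
          + ((ℓ ^ b : ℕ) : Matrix (Fin D.r) (Fin D.r) (Qn p m))) * red D m (D.ρ g⁻¹) := by
      rw [add_mul, sub_mul, mul_assoc, mul_assoc, hYY', mul_one, mul_one]
      abel
    rw [h1, hV, zero_mul]
  rw [red_eq_zero_iff] at hZ
  intro i' j'
  have h2 : (tauD D g - mp D S P) i' j'
      = (D.ρ g + ((ℓ ^ b : ℕ) : Matrix (Fin D.r) (Fin D.r) ℤ_[p]) * D.ρ g⁻¹ - mp D S P) i' j'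
        + (((CycloChar.eps p g : ℤ_[p]ˣ) : ℤ_[p]) - (ℓ : ℤ_[p]) ^ b) * (D.ρ g⁻¹) i' j' := by
    have hmul : (((ℓ ^ b : ℕ) : Matrix (Fin D.r) (Fin D.r) ℤ_[p]) * D.ρ g⁻¹) i' j'
        = (ℓ : ℤ_[p]) ^ b * (D.ρ g⁻¹) i' j' := by
      rw [← nsmul_eq_mul, Matrix.smul_apply, nsmul_eq_mul, Nat.cast_pow]
    simp only [tauD, Matrix.sub_apply, Matrix.add_apply, Matrix.smul_apply, smul_eq_mul, hmul]
    ring
  rw [h2]
  exact Ideal.add_mem _ (hZ i' j') (Ideal.mul_mem_right _ _ hε)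

/-- `τ_D(g)` lies in the `p`-adic Hecke ring. -/
theorem tauD_mem (hdens : FrobDensity) (hpS : p ∈ S)
    (hNS : ∀ q : ℕ, q.Prime → q ∣ N → q ∈ S) (g : GQ) : tauD D g ∈ Rp D S := by
  refine mem_Rp_of_approx D S _ fun m => ?_
  obtain ⟨i, A, s, b, -, -, -, h⟩ := approx_lat D S hdens hpS hNS g m ⊥
  refine ⟨mp D S (lucasV (MvPolynomial.X i) (i.1 : MvPolynomial (Idx N S) ℤ) b), ?_, h⟩
  rw [← mpp_map]
  exact mpp_mem D S _

/-- `τ_D(g)` is a polynomial with `p`-adic coefficients in the Hecke matrices. -/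
theorem exists_tau (hdens : FrobDensity) (hpS : p ∈ S)
    (hNS : ∀ q : ℕ, q.Prime → q ∣ N → q ∈ S) (g : GQ) :
    ∃ Q : MvPolynomial (Idx N S) ℤ_[p], mpp D S Q = tauD D g :=
  mpp_surjective D S (tauD_mem D S hdens hpS hNS g)

end Lattice

section Datum

variable {N p : ℕ} [NeZero N] [Fact p.Prime] (D : ESData N p) {S : Finset ℕ}
  {𝒪 : Type} [CommRing 𝒪] [IsDomain 𝒪] [IsDiscreteValuationRing 𝒪]
  [IsAdicComplete (IsLocalRing.maximalIdeal 𝒪) 𝒪]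
  {θ : CuspForm.heckeAlgebra N 2 (↑S : Set ℕ) →+* IsLocalRing.ResidueField 𝒪}
  {T : Type} [CommRing T] [IsLocalRing T] [IsNoetherianRing T]
  [IsAdicComplete (IsLocalRing.maximalIdeal T) T] [Algebra 𝒪 T] [IsLocalHom (algebraMap 𝒪 T)]
  [Module.Finite 𝒪 T] [Module.Free 𝒪 T]
  (H : CuspForm.HeckeGaloisRepDatum N (↑S : Set ℕ) 𝒪 θ T)

/-- **Both sides.** One integral polynomial approximating `τ_D(g)` modulo `p ^ m` and
`tr H.ρ(g)` modulo `𝔪 ^ n`. -/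
theorem approx (hdens : FrobDensity) (hpS : p ∈ S)
    (hNS : ∀ q : ℕ, q.Prime → q ∣ N → q ∈ S) (g : GQ) (m n : ℕ) :
    ∃ P : MvPolynomial (Idx N S) ℤ,
      (∀ i j, (tauD D g - mp D S P) i j ∈ Ideal.span {(p : ℤ_[p]) ^ m}) ∧
      LinearMap.trace T H.ρ.V (H.ρ.ρ g) - H.π (a2 (N := N) S P) ∈ maximalIdeal T ^ n := by
  obtain ⟨L₂, hL₂fd, hL₂⟩ := H.ρ.isAdicContinuous n
  have := hL₂fd
  obtain ⟨i, A, s, b, hA, hs, hg, h⟩ := approx_lat D S hdens hpS hNS g m L₂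
  refine ⟨lucasV (MvPolynomial.X i) (i.1 : MvPolynomial (Idx N S) ℤ) b, h, ?_⟩
  have hψ : H.π (a2 (N := N) S (lucasV (MvPolynomial.X i) (i.1 : MvPolynomial (Idx N S) ℤ) b))
      = LinearMap.trace T H.ρ.V (H.ρ.ρ (s ^ b)) := by
    rw [map_pow, trace_pow_eq_lucasV H.ρ.finrank_eq (H.ρ.ρ s) _ _
      (H.charpoly_frob i.1 i.2.1 i.2.2.1 i.2.2.2 A hA s hs) b]
    show (H.π.comp (a2 (N := N) S).toRingHom) (lucasV _ _ b) = _
    rw [map_lucasV, map_natCast]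
    congr 1
    simp [a2]
  rw [hψ]
  exact trace_sub_mem H.ρ n L₂ hL₂ (s ^ b) g hg

/-- **The trace formula.** A `p`-adic polynomial in the Hecke matrices which equals `τ_D(g)` maps
to `tr H.ρ(g)` in `T`. -/
theorem pip_eq_trace (hdens : FrobDensity) (hpS : p ∈ S)
    (hNS : ∀ q : ℕ, q.Prime → q ∣ N → q ∈ S) (hpT : (p : T) ∈ maximalIdeal T)
    (ι : ℤ_[p] →+* T) (g : GQ) (Q : MvPolynomial (Idx N S) ℤ_[p])
    (hQ : mpp D S Q = tauD D g) :
    pip H ι Q = LinearMap.trace T H.ρ.V (H.ρ.ρ g) := by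
  obtain ⟨k, hk⟩ := exists_sat D H ι hpS
  have hmem : pip H ι Q - LinearMap.trace T H.ρ.V (H.ρ.ρ g) ∈ ⨅ n : ℕ, maximalIdeal T ^ n := by
    refine (Ideal.mem_iInf).mpr fun n => ?_
    obtain ⟨P, hP, htr⟩ := approx D H hdens hpS hNS g (n + k) n
    obtain ⟨y, hy⟩ := hk n (Q - MvPolynomial.map (Int.castRingHom ℤ_[p]) P) (fun i j => by
      rw [map_sub, hQ, mpp_map]
      exact hP i j)
    have h1 : pip H ι Q - LinearMap.trace T H.ρ.V (H.ρ.ρ g) = (p : T) ^ n * y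
        - (LinearMap.trace T H.ρ.V (H.ρ.ρ g) - H.π (a2 (N := N) S P)) := by
      rw [← hy, map_sub, pip_map]
      ring
    rw [h1]
    exact Ideal.sub_mem _ (Ideal.mul_mem_right _ _ (Ideal.pow_mem_pow hpT n)) htr
  rw [Ideal.iInf_pow_eq_bot_of_isLocalRing (maximalIdeal T) Ideal.IsPrime.ne_top'] at hmem
  exact sub_eq_zero.mp hmem

end Datum

end Fermat.Agent.S32.Tau
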