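/-
S32 half, file C (helper246): the transfer theorem for the frozen `HeckeGaloisRepDatum`.

`relation_transfer` : every relation `∑ Q_i(t) ρ_D(g_i) = 0` among the Galois matrices of an
`ESData` lattice, with coefficients `p`-adic polynomials in the Hecke matrices, holds in
`End_T(H.ρ.V)`: `∑ pip(Q_i) • H.ρ.ρ(g_i) = 0`.

No reducedness of the Hecke algebra, no Brauer–Nesbitt: `Lib/TransferAlg` applied to the
Hecke ring `Rp` acting on `ℤ_p^r`, with `τ(g) = ρ_D(g) + ε(g) ρ_D(g⁻¹) ∈ Rp` (`S32/Tau`).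
-/
import Mathlib
import Fermat.Prelude.Def_CuspForm_HeckeGaloisRepDatum
import Fermat.Agent.S30.Defs
import Fermat.Agent.S30.CycloChar
import Fermat.Agent.S31.Glue
import Fermat.Agent.S31.TraceDet
import Fermat.Agent.Lib.TransferAlg
import Fermat.Agent.Lib.TransferAdj
import Fermat.Agent.S32.HeckeRing
import Fermat.Agent.S32.Tau

set_option autoImplicit false

noncomputable section

namespace Fermat.Agent.S32.Transfer

open Fermat.Agent.S30 Fermat.Agent.S31.Glue Fermat.Agent.S32.HeckeRing Fermat.Agent.S32.Tau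
  IsLocalRing Matrix

/-! ### Trace rigidity of a residually absolutely irreducible representation, in matrix form -/

section Rigid

variable {T : Type} [CommRing T] [IsLocalRing T]

local notation "κ" => IsLocalRing.ResidueField T
local notation "κb" => AlgebraicClosure (IsLocalRing.ResidueField T)

/-- For a rank-two Galois representation with absolutely irreducible residual representation:
the residual matrices are trace-nondegenerate, and the matrices span `M₂(T)`. -/
theorem rigid (ρ : GaloisRepAdic T) (habs : ρ.residual.IsAbsolutelyIrreducible)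
    (e : Module.Basis (Fin 2) T ρ.V) :
    (∀ C : Matrix (Fin 2) (Fin 2) κ,
      (∀ g, (C * (LinearMap.toMatrix e e (ρ.ρ g)).map (IsLocalRing.residue T)).trace = 0) →
        C = 0) ∧
    Submodule.span T (Set.range fun g => LinearMap.toMatrix e e (ρ.ρ g)) = ⊤ := by
  classical
  let R : (AlgebraicClosure ℚ ≃ₐ[ℚ] AlgebraicClosure ℚ) → Matrix (Fin 2) (Fin 2) T :=
    fun g => LinearMap.toMatrix e e (ρ.ρ g)
  have hB := Fermat.Agent.S31.Burnside.span_range_eq_top (K := κb)
    (ρ.residual.baseChange κb).finrank_eq (ρ.residual.baseChange κb).ρ habs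
  let e1 : Module.Basis (Fin 2) κ (TensorProduct T κ ρ.V) := Algebra.TensorProduct.basis κ e
  let e2 : Module.Basis (Fin 2) κb (TensorProduct κ κb (TensorProduct T κ ρ.V)) :=
    Algebra.TensorProduct.basis κb e1
  have hmat : ∀ g, LinearMap.toMatrix e2 e2 ((ρ.residual.baseChange κb).ρ g) =
      ((R g).map (algebraMap T κ)).map (algebraMap κ κb) := by
    intro g
    show LinearMap.toMatrix e2 e2 (((ρ.ρ g).baseChange κ).baseChange κb) = _
    rw [LinearMap.toMatrix_baseChange, LinearMap.toMatrix_baseChange]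
  have hspan_b : Submodule.span κb
      (Set.range fun g => ((R g).map (algebraMap T κ)).map (algebraMap κ κb)) = ⊤ := by
    rw [eq_top_iff]
    intro M _
    have hM := hB.ge (Submodule.mem_top (x := (LinearMap.toMatrix e2 e2).symm M))
    have hM' := Submodule.apply_mem_span_image_of_mem_span
      (LinearMap.toMatrix e2 e2).toLinearMap hM
    rw [LinearEquiv.coe_coe, LinearEquiv.apply_symm_apply] at hM'
    refine Submodule.span_mono ?_ hM'
    rintro _ ⟨_, ⟨g, rfl⟩, rfl⟩
    exact ⟨g, (hmat g).symm⟩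
  have hκb : ∀ C : Matrix (Fin 2) (Fin 2) κb,
      (∀ g, (C * ((R g).map (algebraMap T κ)).map (algebraMap κ κb)).trace = 0) → C = 0 :=
    Fermat.Agent.S31.TraceDet.eq_zero_of_span_eq_top _ hspan_b
  have hκ : ∀ C : Matrix (Fin 2) (Fin 2) κ,
      (∀ g, (C * (R g).map (algebraMap T κ)).trace = 0) → C = 0 :=
    Fermat.Agent.S31.TraceDet.eq_zero_of_map (algebraMap κ κb)
      (fun g => (R g).map (algebraMap T κ)) hκb
  have hspanκ : Submodule.span κ (Set.range fun g => (R g).map (IsLocalRing.residue T)) = ⊤ :=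
    Fermat.Agent.S31.TraceDet.span_eq_top_of_trace (fun g => (R g).map (algebraMap T κ)) hκ
  exact ⟨hκ, Fermat.Agent.S31.TraceDet.span_eq_top_of_residue R hspanκ⟩

end Rigid

/-! ### The lattice as a module over the Hecke ring -/

section Lattice

variable {N p : ℕ} [NeZero N] [Fact p.Prime] (D : ESData N p) (S : Finset ℕ)

/-- The Galois matrices commute with the Hecke ring. -/
theorem rho_commute (g : GQ) {x : Matrix (Fin D.r) (Fin D.r) ℤ_[p]} (hx : x ∈ Rp D S) :
    D.ρ g * x = x * D.ρ g := by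
  induction hx using Algebra.adjoin_induction with
  | mem x hx =>
    obtain ⟨i, rfl⟩ := hx
    exact (D.ρ_comm g i.1).eq
  | algebraMap r => exact (Algebra.commutes r (D.ρ g)).symm
  | add x y _ _ hx hy => rw [mul_add, add_mul, hx, hy]
  | mul x y _ _ hx hy => rw [← mul_assoc, hx, mul_assoc, hy, mul_assoc]

/-- `ℤ_p^r` as a module over the Hecke ring `Rp`. -/
@[reducible] def moduleLattice : Module (Rp D S) (Fin D.r → ℤ_[p]) where
  smul r v := (r : Matrix (Fin D.r) (Fin D.r) ℤ_[p]) *ᵥ v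
  one_smul v := Matrix.one_mulVec v
  mul_smul r s v := (Matrix.mulVec_mulVec v r.1 s.1).symm
  smul_zero _ := Matrix.mulVec_zero _
  smul_add _ v w := Matrix.mulVec_add _ v w
  add_smul _ _ v := Matrix.add_mulVec _ _ v
  zero_smul v := Matrix.zero_mulVec v

attribute [local instance] moduleLattice

theorem smul_eq_mulVec (r : Rp D S) (v : Fin D.r → ℤ_[p]) :
    r • v = (r : Matrix (Fin D.r) (Fin D.r) ℤ_[p]) *ᵥ v := rfl

instance instIsScalarTowerLattice : IsScalarTower ℤ_[p] (Rp D S) (Fin D.r → ℤ_[p]) :=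
  ⟨fun z r v => by
    rw [smul_eq_mulVec, smul_eq_mulVec, Subalgebra.coe_smul, Matrix.smul_mulVec]⟩

instance instIsNoetherianLattice : IsNoetherian (Rp D S) (Fin D.r → ℤ_[p]) :=
  isNoetherian_of_tower ℤ_[p] inferInstance

/-- The Galois action on the lattice, by `Rp`-linear endomorphisms. -/
def rhoL : GQ →* Module.End (Rp D S) (Fin D.r → ℤ_[p]) where
  toFun g :=
    { toFun := fun v => D.ρ g *ᵥ v
      map_add' := fun v w => Matrix.mulVec_add _ v w
      map_smul' := fun r v => by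
        show D.ρ g *ᵥ (r.1 *ᵥ v) = r.1 *ᵥ (D.ρ g *ᵥ v)
        rw [Matrix.mulVec_mulVec, Matrix.mulVec_mulVec, rho_commute D S g r.2] }
  map_one' := LinearMap.ext fun v => by
    show D.ρ 1 *ᵥ v = v
    rw [map_one, Matrix.one_mulVec]
  map_mul' g h := LinearMap.ext fun v => by
    show D.ρ (g * h) *ᵥ v = D.ρ g *ᵥ (D.ρ h *ᵥ v)
    rw [map_mul, Matrix.mulVec_mulVec]

theorem rhoL_apply (g : GQ) (v : Fin D.r → ℤ_[p]) : rhoL D S g v = D.ρ g *ᵥ v := rfl

theorem algebraMap_injective :
    Function.Injective (algebraMap (Rp D S) (Module.End (Rp D S) (Fin D.r → ℤ_[p]))) := by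
  intro x y h
  apply Subtype.ext
  apply Matrix.toLin'.injective
  refine LinearMap.ext fun v => ?_
  have h1 := LinearMap.congr_fun h v
  rw [Module.algebraMap_end_apply, Module.algebraMap_end_apply, smul_eq_mulVec,
    smul_eq_mulVec] at h1
  rw [Matrix.toLin'_apply, Matrix.toLin'_apply]
  exact h1

/-- The cyclotomic character with values in the units of the Hecke ring. -/
def epsR : GQ →* (Rp D S)ˣ :=
  (Units.map (algebraMap ℤ_[p] (Rp D S) : ℤ_[p] →* Rp D S)).comp (CycloChar.eps p)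

theorem epsR_coe (g : GQ) : (((epsR D S g : (Rp D S)ˣ) : Rp D S) :
    Matrix (Fin D.r) (Fin D.r) ℤ_[p]) =
      algebraMap ℤ_[p] (Matrix (Fin D.r) (Fin D.r) ℤ_[p]) ((CycloChar.eps p g : ℤ_[p]ˣ) : ℤ_[p]) :=
  rfl

/-- `τ_D(g)` as an element of the Hecke ring. -/
def tauR (hdens : FrobDensity) (hpS : p ∈ S) (hNS : ∀ q : ℕ, q.Prime → q ∣ N → q ∈ S)
    (g : GQ) : Rp D S :=
  ⟨tauD D g, tauD_mem D S hdens hpS hNS g⟩

/-- The standing relation `ρ g + ε g • ρ g⁻¹ = τ g` on the lattice. -/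
theorem rel (hdens : FrobDensity) (hpS : p ∈ S) (hNS : ∀ q : ℕ, q.Prime → q ∣ N → q ∈ S) :
    Fermat.Agent.Lib.TransferAlg.Rel (rhoL D S) (epsR D S) (tauR D S hdens hpS hNS) := by
  intro g
  refine LinearMap.ext fun v => ?_
  rw [Module.algebraMap_end_apply, LinearMap.add_apply, LinearMap.smul_apply, rhoL_apply,
    rhoL_apply, smul_eq_mulVec, smul_eq_mulVec, epsR_coe, Algebra.algebraMap_eq_smul_one,
    Matrix.smul_mulVec, Matrix.one_mulVec]
  show _ = tauD D g *ᵥ v
  rw [tauD, Matrix.add_mulVec, Matrix.smul_mulVec]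

theorem ap_surjective : Function.Surjective (ap D S) := fun x => by
  obtain ⟨Q, hQ⟩ := mpp_surjective D S x.2
  exact ⟨Q, Subtype.ext hQ⟩

theorem ap_coe (Q : MvPolynomial (Idx N S) ℤ_[p]) :
    ((ap D S Q : Rp D S) : Matrix (Fin D.r) (Fin D.r) ℤ_[p]) = mpp D S Q := rfl

end Lattice

/-! ### The instance -/

section Datum

variable {N p : ℕ} [NeZero N] [Fact p.Prime] (D : ESData N p) {S : Finset ℕ}
  {𝒪 : Type} [CommRing 𝒪] [IsDomain 𝒪] [IsDiscreteValuationRing 𝒪]
  [IsAdicComplete (IsLocalRing.maximalIdeal 𝒪) 𝒪]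
  {θ : CuspForm.heckeAlgebra N 2 (↑S : Set ℕ) →+* IsLocalRing.ResidueField 𝒪}
  {T : Type} [CommRing T] [IsLocalRing T] [IsNoetherianRing T]
  [IsAdicComplete (IsLocalRing.maximalIdeal T) T] [Algebra 𝒪 T] [IsLocalHom (algebraMap 𝒪 T)]
  [Module.Finite 𝒪 T] [Module.Free 𝒪 T]
  (H : CuspForm.HeckeGaloisRepDatum N (↑S : Set ℕ) 𝒪 θ T) (ι : ℤ_[p] →+* T)

attribute [local instance] moduleLattice

/-- The map from the Hecke ring `Rp` to `T`. -/
def piR (hpS : p ∈ S) (hpT : (p : T) ∈ maximalIdeal T) : Rp D S →+* T :=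
  RingHom.liftOfSurjective (ap D S).toRingHom (ap_surjective D S)
    ⟨pip H ι, fun Q hQ => by
      rw [RingHom.mem_ker] at hQ ⊢
      refine pip_eq_zero_of_mpp_eq_zero D H ι hpS hpT Q ?_
      have := congrArg (Subtype.val : Rp D S → Matrix (Fin D.r) (Fin D.r) ℤ_[p]) hQ
      exact this⟩

theorem piR_ap (hpS : p ∈ S) (hpT : (p : T) ∈ maximalIdeal T)
    (Q : MvPolynomial (Idx N S) ℤ_[p]) : piR D H ι hpS hpT (ap D S Q) = pip H ι Q :=
  RingHom.liftOfSurjective_comp_apply (ap D S).toRingHom (ap_surjective D S) _ Q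

/-- The preimage of the maximal ideal of `T` in the Hecke ring is maximal. -/
theorem comap_piR_isMaximal [Finite (ResidueField T)] (hpS : p ∈ S)
    (hpT : (p : T) ∈ maximalIdeal T) :
    (Ideal.comap (piR D H ι hpS hpT) (maximalIdeal T)).IsMaximal := by
  have hprime : (Ideal.comap (piR D H ι hpS hpT) (maximalIdeal T)).IsPrime :=
    Ideal.comap_isPrime _ _
  have hinj : Function.Injective
      (Ideal.quotientMap (maximalIdeal T) (piR D H ι hpS hpT) le_rfl) :=
    Ideal.quotientMap_injective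
  have hfinT : Finite (T ⧸ maximalIdeal T) := inferInstanceAs (Finite (ResidueField T))
  have hfin : Finite (Rp D S ⧸ Ideal.comap (piR D H ι hpS hpT) (maximalIdeal T)) :=
    Finite.of_injective _ hinj
  exact Ideal.Quotient.maximal_of_isField _ (Finite.isField_of_domain _)

set_option synthInstance.maxHeartbeats 400000 in
/-- **Transfer for the frozen datum.** Every relation among the Galois matrices of the lattice,
with coefficients in the `p`-adic Hecke ring, holds in `End_T(H.ρ.V)`. -/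
theorem relation_transfer [Finite (ResidueField T)] (hdens : FrobDensity) (hpS : p ∈ S)
    (hNS : ∀ q : ℕ, q.Prime → q ∣ N → q ∈ S) (hpT : (p : T) ∈ maximalIdeal T)
    {κ : Type*} (s : Finset κ) (Q : κ → MvPolynomial (Idx N S) ℤ_[p]) (g : κ → GQ)
    (h0 : ∑ i ∈ s, mpp D S (Q i) * D.ρ (g i) = 0) :
    ∑ i ∈ s, pip H ι (Q i) • H.ρ.ρ (g i) = 0 := by
  classical
  let e : Module.Basis (Fin 2) T H.ρ.V := Module.finBasisOfFinrankEq T H.ρ.V H.ρ.finrank_eq
  let ρV : GQ →* Matrix (Fin 2) (Fin 2) T :=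
    { toFun := fun g => LinearMap.toMatrix e e (H.ρ.ρ g)
      map_one' := by rw [map_one]; exact LinearMap.toMatrix_one e
      map_mul' := fun g h => by
        rw [map_mul, Module.End.mul_eq_comp, LinearMap.toMatrix_comp e e e] }
  have hρV : ∀ g, ρV g = LinearMap.toMatrix e e (H.ρ.ρ g) := fun _ => rfl
  obtain ⟨hκ, hspanT⟩ := rigid H.ρ H.residual_absIrr e
  have htrace : ∀ g, piR D H ι hpS hpT (tauR D S hdens hpS hNS g) = (ρV g).trace := by
    intro g
    obtain ⟨Q₀, hQ₀⟩ := exists_tau D S hdens hpS hNS g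
    have h1 : tauR D S hdens hpS hNS g = ap D S Q₀ := Subtype.ext hQ₀.symm
    rw [h1, piR_ap, pip_eq_trace D H hdens hpS hNS hpT ι g Q₀ hQ₀, hρV,
      ← LinearMap.trace_eq_matrix_trace T e]
  have hres : ∀ Z : Matrix (Fin 2) (Fin 2) (ResidueField T),
      (∀ y, ((ρV y).map (IsLocalRing.residue T) * Z).trace = 0) → Z = 0 := by
    intro Z hZ
    refine hκ Z fun y => ?_
    rw [Matrix.trace_mul_comm]
    exact hZ y
  have htr : ∀ Z : Matrix (Fin 2) (Fin 2) T, (∀ h, (Z * ρV h).trace = 0) → Z = 0 :=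
    fun Z hZ => Fermat.Agent.S31.TraceDet.eq_zero_of_span_eq_top _ hspanT Z hZ
  have h0' : ∑ i ∈ s, ap D S (Q i) • rhoL D S (g i) = 0 := by
    refine LinearMap.ext fun v => ?_
    rw [LinearMap.sum_apply, LinearMap.zero_apply]
    have h1 : ∀ i ∈ s, (ap D S (Q i) • rhoL D S (g i)) v = (mpp D S (Q i) * D.ρ (g i)) *ᵥ v := by
      intro i _
      rw [LinearMap.smul_apply, rhoL_apply, smul_eq_mulVec, ap_coe, Matrix.mulVec_mulVec]
    rw [Finset.sum_congr rfl h1, ← Matrix.sum_mulVec, h0, Matrix.zero_mulVec]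
  have key := Fermat.Agent.Lib.TransferAdj.transfer_of_isNoetherian
    (rel D S hdens hpS hNS) (algebraMap_injective D S) (piR D H ι hpS hpT)
    (comap_piR_isMaximal D H ι hpS hpT) ρV htrace hres htr s (fun i => ap D S (Q i)) g h0'
  apply (LinearMap.toMatrix e e).injective
  rw [map_sum, map_zero]
  rw [← key]
  refine Finset.sum_congr rfl fun i _ => ?_
  rw [map_smul, piR_ap, hρV]

end Datum

end Fermat.Agent.S32.Transfer
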