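/-
S32 half, file D (helper246): the finite-level corollary (T6) of the transfer theorem.

For every ideal `I` of `T` with `T ⧸ I` finite, the Galois module `V ⧸ I V` (`V = H.ρ.V`, with
`H.ρ.levelAction I`) is a Galois-equivariant QUOTIENT of a Galois-stable SUBGROUP of a finite
product of copies of `(ℤ/pⁿ)^r`, the reduction modulo `pⁿ` of the Eichler–Shimura lattice of an
`ESData` (Galois acting by `mulVec` with `D.ρ σ` modulo `pⁿ` on every copy).
-/
import Mathlib
import Fermat.Prelude.Def_CuspForm_HeckeGaloisRepDatum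
import Fermat.Prelude.Def_GaloisRep_Flat
import Fermat.Agent.S30.Defs
import Fermat.Agent.S31.Glue
import Fermat.Agent.S32.HeckeRing
import Fermat.Agent.S32.Transfer

set_option autoImplicit false

noncomputable section

namespace Fermat.Agent.S32.FiniteLevel

open Fermat.Agent.S30 Fermat.Agent.S31.Glue Fermat.Agent.S32.HeckeRing
  Fermat.Agent.S32.Transfer IsLocalRing Matrix

section Lattice

variable {N p : ℕ} [NeZero N] [Fact p.Prime] (D : ESData N p) (S : Finset ℕ)

/-- `mpp` as a `ℤ_p`-linear map. -/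
def mppL : MvPolynomial (Idx N S) ℤ_[p] →ₗ[ℤ_[p]] Matrix (Fin D.r) (Fin D.r) ℤ_[p] :=
  ((Rp D S).val.comp (ap D S)).toLinearMap

theorem mppL_apply (Q : MvPolynomial (Idx N S) ℤ_[p]) : mppL D S Q = mpp D S Q := rfl

/-- Lattice-side evaluation of a formal combination of Galois elements with coefficients
`p`-adic Hecke polynomials. -/
def evD : (GQ →₀ MvPolynomial (Idx N S) ℤ_[p]) →ₗ[ℤ_[p]] Matrix (Fin D.r) (Fin D.r) ℤ_[p] :=
  Finsupp.lsum ℤ_[p] fun g => (LinearMap.mulRight ℤ_[p] (D.ρ g)).comp (mppL D S)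

theorem evD_single (g : GQ) (Q : MvPolynomial (Idx N S) ℤ_[p]) :
    evD D S (Finsupp.single g Q) = mpp D S Q * D.ρ g := by
  rw [evD, Finsupp.lsum_single, LinearMap.comp_apply, LinearMap.mulRight_apply, mppL_apply]

theorem evD_apply (c : GQ →₀ MvPolynomial (Idx N S) ℤ_[p]) :
    evD D S c = ∑ g ∈ c.support, mpp D S (c g) * D.ρ g := by
  rw [evD, Finsupp.lsum_apply]
  rfl

/-- Left translation of formal combinations. -/
def trans (σ : GQ) : (GQ →₀ MvPolynomial (Idx N S) ℤ_[p]) →+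
    (GQ →₀ MvPolynomial (Idx N S) ℤ_[p]) :=
  Finsupp.mapDomain.addMonoidHom (σ * ·)

omit [NeZero N] in
theorem trans_single (σ g : GQ) (Q : MvPolynomial (Idx N S) ℤ_[p]) :
    trans (N := N) (p := p) S σ (Finsupp.single g Q) = Finsupp.single (σ * g) Q :=
  Finsupp.mapDomain_single

theorem evD_trans (σ : GQ) (c : GQ →₀ MvPolynomial (Idx N S) ℤ_[p]) :
    evD D S (trans S σ c) = D.ρ σ * evD D S c := by
  have h : (evD D S).toAddMonoidHom.comp (trans S σ) =
      (AddMonoidHom.mulLeft (D.ρ σ)).comp (evD D S).toAddMonoidHom := by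
    refine Finsupp.addHom_ext fun g Q => ?_
    simp only [AddMonoidHom.comp_apply, LinearMap.toAddMonoidHom_coe, AddMonoidHom.coe_mulLeft,
      trans_single, evD_single]
    rw [map_mul, ← mul_assoc, ← mul_assoc, rho_commute D S σ (mpp_mem D S Q)]
  exact DFunLike.congr_fun h c

/-- Artin–Rees for the Galois–Hecke algebra inside the matrix ring: a formal combination whose
matrix is divisible by `p ^ (m + e)` has matrix `p ^ m` times that of another combination. -/
theorem exists_sat_evD : ∃ e : ℕ, ∀ (m : ℕ) (c : GQ →₀ MvPolynomial (Idx N S) ℤ_[p]),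
    (∀ i j, evD D S c i j ∈ Ideal.span {(p : ℤ_[p]) ^ (m + e)}) →
      ∃ c' : GQ →₀ MvPolynomial (Idx N S) ℤ_[p], evD D S c = (p ^ m : ℕ) • evD D S c' := by
  obtain ⟨k, hk⟩ := Ideal.exists_pow_inf_eq_pow_smul (Ideal.span {(p : ℤ_[p])})
    (LinearMap.range (evD D S))
  refine ⟨k, fun m c hentry => ?_⟩
  have hd1 : evD D S c ∈ Ideal.span {(p : ℤ_[p])} ^ (m + k) •
      (⊤ : Submodule ℤ_[p] (Matrix (Fin D.r) (Fin D.r) ℤ_[p])) := by
    obtain ⟨z, hz⟩ : ∃ z : Matrix (Fin D.r) (Fin D.r) ℤ_[p],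
        evD D S c = ((p : ℤ_[p]) ^ (m + k)) • z := by
      choose d hd using fun i j => Ideal.mem_span_singleton'.mp (hentry i j)
      refine ⟨Matrix.of d, ?_⟩
      ext i j
      rw [Matrix.smul_apply, Matrix.of_apply, smul_eq_mul, mul_comm, hd]
    rw [hz]
    exact Submodule.smul_mem_smul (Ideal.pow_mem_pow (Ideal.mem_span_singleton_self _) _)
      Submodule.mem_top
  have hd2 : evD D S c ∈ Ideal.span {(p : ℤ_[p])} ^ m • LinearMap.range (evD D S) := by
    have h1 : evD D S c ∈ Ideal.span {(p : ℤ_[p])} ^ (m + k) •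
        (⊤ : Submodule ℤ_[p] (Matrix (Fin D.r) (Fin D.r) ℤ_[p])) ⊓ LinearMap.range (evD D S) :=
      ⟨hd1, LinearMap.mem_range_self _ _⟩
    rw [hk (m + k) (Nat.le_add_left k m), Nat.add_sub_cancel] at h1
    exact Submodule.smul_mono le_rfl inf_le_right h1
  rw [Ideal.span_singleton_pow, Submodule.ideal_span_singleton_smul] at hd2
  obtain ⟨a, ha, had⟩ := (Submodule.mem_smul_pointwise_iff_exists _ _ _).mp hd2
  obtain ⟨c', rfl⟩ := ha
  refine ⟨c', ?_⟩
  rw [← had, ← Nat.cast_smul_eq_nsmul ℤ_[p], Nat.cast_pow]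

end Lattice

section Datum

variable {N p : ℕ} [NeZero N] [Fact p.Prime] (D : ESData N p) {S : Finset ℕ}
  {𝒪 : Type} [CommRing 𝒪] [IsDomain 𝒪] [IsDiscreteValuationRing 𝒪]
  [IsAdicComplete (IsLocalRing.maximalIdeal 𝒪) 𝒪]
  {θ : CuspForm.heckeAlgebra N 2 (↑S : Set ℕ) →+* IsLocalRing.ResidueField 𝒪}
  {T : Type} [CommRing T] [IsLocalRing T] [IsNoetherianRing T]
  [IsAdicComplete (IsLocalRing.maximalIdeal T) T] [Algebra 𝒪 T] [IsLocalHom (algebraMap 𝒪 T)]
  [Module.Finite 𝒪 T] [Module.Free 𝒪 T]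
  (H : CuspForm.HeckeGaloisRepDatum N (↑S : Set ℕ) 𝒪 θ T) (ι : ℤ_[p] →+* T)

/-- `V`-side evaluation of a formal combination. -/
def evV : (GQ →₀ MvPolynomial (Idx N S) ℤ_[p]) →+ Module.End T H.ρ.V :=
  Finsupp.liftAddHom fun g => (AddMonoidHom.mulRight (H.ρ.ρ g)).comp
    ((algebraMap T (Module.End T H.ρ.V)).toAddMonoidHom.comp (pip H ι).toAddMonoidHom)

theorem evV_single (g : GQ) (Q : MvPolynomial (Idx N S) ℤ_[p]) :
    evV H ι (Finsupp.single g Q) = pip H ι Q • H.ρ.ρ g := by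
  rw [evV, Finsupp.liftAddHom_apply_single, Algebra.smul_def]
  rfl

theorem evV_apply (c : GQ →₀ MvPolynomial (Idx N S) ℤ_[p]) :
    evV H ι c = ∑ g ∈ c.support, pip H ι (c g) • H.ρ.ρ g := by
  rw [evV, Finsupp.liftAddHom_apply]
  refine Finset.sum_congr rfl fun g _ => ?_
  rw [Algebra.smul_def]
  rfl

theorem evV_trans (σ : GQ) (c : GQ →₀ MvPolynomial (Idx N S) ℤ_[p]) :
    evV H ι (trans S σ c) = H.ρ.ρ σ * evV H ι c := by
  have h : (evV H ι).comp (trans S σ) = (AddMonoidHom.mulLeft (H.ρ.ρ σ)).comp (evV H ι) := by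
    refine Finsupp.addHom_ext fun g Q => ?_
    simp only [AddMonoidHom.comp_apply, AddMonoidHom.coe_mulLeft, trans_single, evV_single]
    rw [map_mul, mul_smul_comm]
  exact DFunLike.congr_fun h c

/-- The transfer theorem for formal combinations. -/
theorem evV_eq_zero [Finite (ResidueField T)] (hdens : FrobDensity) (hpS : p ∈ S)
    (hNS : ∀ q : ℕ, q.Prime → q ∣ N → q ∈ S) (hpT : (p : T) ∈ maximalIdeal T)
    (c : GQ →₀ MvPolynomial (Idx N S) ℤ_[p]) (h : evD D S c = 0) : evV H ι c = 0 := by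
  rw [evV_apply]
  rw [evD_apply] at h
  exact relation_transfer D H ι hdens hpS hNS hpT c.support (fun g => c g) (fun g => g) h

/-- Divisibility passes from the lattice to `V`. -/
theorem evV_eq_nsmul [Finite (ResidueField T)] (hdens : FrobDensity) (hpS : p ∈ S)
    (hNS : ∀ q : ℕ, q.Prime → q ∣ N → q ∈ S) (hpT : (p : T) ∈ maximalIdeal T)
    (n : ℕ) (c c' : GQ →₀ MvPolynomial (Idx N S) ℤ_[p]) (h : evD D S c = n • evD D S c') :
    evV H ι c = n • evV H ι c' := by
  have h0 : evD D S (c - n • c') = 0 := by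
    rw [map_sub, map_nsmul, h, sub_self]
  have h1 := evV_eq_zero D H ι hdens hpS hNS hpT _ h0
  rw [map_sub, map_nsmul, sub_eq_zero] at h1
  exact h1

omit [Fact p.Prime] [IsNoetherianRing T] [IsAdicComplete (maximalIdeal T) T] in
/-- Some power of `p` lies in an ideal of finite index. -/
theorem exists_pow_mem (hpT : (p : T) ∈ maximalIdeal T) (I : Ideal T) [Finite (T ⧸ I)] :
    ∃ m : ℕ, (p : T) ^ m ∈ I := by
  have key : ∀ a b : ℕ, a < b → Ideal.Quotient.mk I ((p : T) ^ a) =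
      Ideal.Quotient.mk I ((p : T) ^ b) → (p : T) ^ a ∈ I := by
    intro a b hlt h
    have h1 : (p : T) ^ a - (p : T) ^ b ∈ I := Ideal.Quotient.eq.mp h
    have h2 : (p : T) ^ b = (p : T) ^ a * (p : T) ^ (b - a) := by
      rw [← pow_add, Nat.add_sub_cancel' hlt.le]
    have hu : IsUnit (1 - (p : T) ^ (b - a)) :=
      IsLocalRing.isUnit_one_sub_self_of_mem_nonunits _
        (Ideal.pow_mem_of_mem _ hpT _ (Nat.sub_pos_of_lt hlt))
    obtain ⟨u, hu⟩ := hu
    have h3 : (p : T) ^ a = ((u⁻¹ : Tˣ) : T) * ((p : T) ^ a - (p : T) ^ b) := by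
      rw [h2, ← mul_one_sub, ← hu, mul_comm ((p : T) ^ a), ← mul_assoc, Units.inv_mul, one_mul]
    rw [h3]
    exact Ideal.mul_mem_left _ _ h1
  obtain ⟨a, b, hab, h⟩ := Finite.exists_ne_map_eq_of_infinite
    (fun k : ℕ => Ideal.Quotient.mk I ((p : T) ^ k))
  rcases lt_or_gt_of_ne hab with hlt | hlt
  · exact ⟨a, key a b hlt h⟩
  · exact ⟨b, key b a hlt h.symm⟩

/-- The Galois action on families of vectors modulo `p ^ n`: `mulVec` with `D.ρ σ` modulo
`p ^ n` on every member. -/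
def vecAct (n : ℕ) (σ : GQ) {κ : Type*} (y : κ → Fin D.r → ZMod (p ^ n)) :
    κ → Fin D.r → ZMod (p ^ n) :=
  fun k => (D.ρ σ).map (PadicInt.toZModPow n) *ᵥ y k

variable (S) in
/-- Reduction of a family of formal combinations: the columns of their matrices modulo
`p ^ n`. -/
def redP (n : ℕ) (κ : Type*) : (κ → GQ →₀ MvPolynomial (Idx N S) ℤ_[p]) →+
    (κ × Fin D.r → Fin D.r → ZMod (p ^ n)) where
  toFun c k i := PadicInt.toZModPow n (evD D S (c k.1) i k.2)
  map_zero' := by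
    ext k i
    simp
  map_add' c c' := by
    ext k i
    simp [Matrix.add_apply]

theorem redP_trans (n : ℕ) (κ : Type*) (σ : GQ)
    (c : κ → GQ →₀ MvPolynomial (Idx N S) ℤ_[p]) :
    redP D S n κ (fun k => trans S σ (c k)) = vecAct D n σ (redP D S n κ c) := by
  ext k i
  show PadicInt.toZModPow n (evD D S (trans S σ (c k.1)) i k.2) =
    ((D.ρ σ).map (PadicInt.toZModPow n) *ᵥ
      fun i' => PadicInt.toZModPow n (evD D S (c k.1) i' k.2)) i
  rw [evD_trans, Matrix.mul_apply, map_sum]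
  simp only [Matrix.mulVec, dotProduct, Matrix.map_apply, map_mul]

/-- Evaluation of a family of formal combinations in `V ⧸ I V`: the `k`-th member is applied
to `v₀` and multiplied by `o k`. -/
def evP (I : Ideal T) {κ : Type*} [Fintype κ] (o : κ → T) (v₀ : H.ρ.V) :
    (κ → GQ →₀ MvPolynomial (Idx N S) ℤ_[p]) →+ (H.ρ.V ⧸ (I • (⊤ : Submodule T H.ρ.V))) where
  toFun c := ∑ k, Submodule.Quotient.mk (o k • evV H ι (c k) v₀)
  map_zero' := by simp
  map_add' c c' := by simp [Finset.sum_add_distrib, smul_add]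

theorem evP_apply (I : Ideal T) {κ : Type*} [Fintype κ] (o : κ → T) (v₀ : H.ρ.V)
    (c : κ → GQ →₀ MvPolynomial (Idx N S) ℤ_[p]) :
    evP H ι I o v₀ c = ∑ k, Submodule.Quotient.mk (o k • evV H ι (c k) v₀) := rfl

theorem evP_trans (I : Ideal T) {κ : Type*} [Fintype κ] (o : κ → T) (v₀ : H.ρ.V) (σ : GQ)
    (c : κ → GQ →₀ MvPolynomial (Idx N S) ℤ_[p]) :
    evP H ι I o v₀ (fun k => trans S σ (c k)) = H.ρ.levelAction I σ (evP H ι I o v₀ c) := by
  rw [evP_apply, evP_apply, map_sum]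
  refine Finset.sum_congr rfl fun k _ => ?_
  rw [evV_trans, Module.End.mul_apply]
  show _ = Submodule.Quotient.mk (H.ρ.ρ σ (o k • evV H ι (c k) v₀))
  rw [map_smul]

/-- A family whose matrices vanish modulo `p ^ (m + e)` evaluates to zero in `V ⧸ I V`. -/
theorem evP_eq_zero_of_redP [Finite (ResidueField T)] (hdens : FrobDensity) (hpS : p ∈ S)
    (hNS : ∀ q : ℕ, q.Prime → q ∣ N → q ∈ S) (hpT : (p : T) ∈ maximalIdeal T)
    (I : Ideal T) {κ : Type*} [Fintype κ] (o : κ → T) (v₀ : H.ρ.V) (m e : ℕ)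
    (hm : (p : T) ^ m ∈ I)
    (he : ∀ (m : ℕ) (c : GQ →₀ MvPolynomial (Idx N S) ℤ_[p]),
      (∀ i j, evD D S c i j ∈ Ideal.span {(p : ℤ_[p]) ^ (m + e)}) →
        ∃ c' : GQ →₀ MvPolynomial (Idx N S) ℤ_[p], evD D S c = (p ^ m : ℕ) • evD D S c')
    (c : κ → GQ →₀ MvPolynomial (Idx N S) ℤ_[p]) (h : redP D S (m + e) κ c = 0) :
    evP H ι I o v₀ c = 0 := by
  rw [evP_apply]
  refine Finset.sum_eq_zero fun k _ => ?_
  have hent : ∀ i j, evD D S (c k) i j ∈ Ideal.span {(p : ℤ_[p]) ^ (m + e)} := by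
    intro i j
    have h1 := congrFun (congrFun h (k, j)) i
    rw [← PadicInt.ker_toZModPow, RingHom.mem_ker]
    exact h1
  obtain ⟨c', hc'⟩ := he m (c k) hent
  rw [evV_eq_nsmul D H ι hdens hpS hNS hpT _ _ _ hc', Submodule.Quotient.mk_eq_zero]
  have h2 : o k • ((p ^ m : ℕ) • evV H ι c') v₀ = ((p : T) ^ m) • (o k • evV H ι c' v₀) := by
    rw [LinearMap.smul_apply, ← Nat.cast_smul_eq_nsmul T, Nat.cast_pow, smul_comm]
  rw [h2]
  exact Submodule.smul_mem_smul hm Submodule.mem_top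

/-- The evaluations `o • Φ(a) (e 0)` fill `V ⧸ I V`. -/
theorem evP_surjective (I : Ideal T) [Fintype (T ⧸ I)] (o : T ⧸ I → T)
    (ho : ∀ q, Ideal.Quotient.mk I (o q) = q) (e : Module.Basis (Fin 2) T H.ρ.V)
    (hspan : Submodule.span T (Set.range fun g => LinearMap.toMatrix e e (H.ρ.ρ g)) = ⊤) :
    Function.Surjective (evP H ι I o (e 0)) := by
  classical
  intro x
  obtain ⟨w, rfl⟩ := Submodule.Quotient.mk_surjective _ x
  let X : Module.End T H.ρ.V := (e.coord 0).smulRight w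
  have hX : X (e 0) = w := by
    show (e.coord 0) (e 0) • w = w
    rw [Module.Basis.coord_apply, Module.Basis.repr_self, Finsupp.single_eq_same, one_smul]
  have hmem : LinearMap.toMatrix e e X ∈
      Submodule.span T (Set.range fun g => LinearMap.toMatrix e e (H.ρ.ρ g)) :=
    hspan ▸ Submodule.mem_top
  obtain ⟨t, ht⟩ := Finsupp.mem_span_range_iff_exists_finsupp.mp hmem
  have hX2 : X = ∑ g ∈ t.support, t g • H.ρ.ρ g := by
    apply (LinearMap.toMatrix e e).injective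
    rw [← ht, map_sum]
    exact Finset.sum_congr rfl fun g _ => (map_smul _ _ _).symm
  have hterm : ∀ (a : T) (g : GQ),
      (Submodule.Quotient.mk (a • H.ρ.ρ g (e 0)) : H.ρ.V ⧸ (I • (⊤ : Submodule T H.ρ.V))) ∈
        (evP H ι I o (e 0)).range := by
    intro a g
    refine ⟨Pi.single (Ideal.Quotient.mk I a) (Finsupp.single g 1), ?_⟩
    rw [evP_apply, Finset.sum_eq_single (Ideal.Quotient.mk I a)]
    · rw [Pi.single_eq_same, evV_single, map_one, one_smul, Submodule.Quotient.eq, ← sub_smul]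
      refine Submodule.smul_mem_smul ?_ Submodule.mem_top
      rw [← Ideal.Quotient.eq, ho]
    · intro k _ hk
      rw [Pi.single_eq_of_ne hk, map_zero, LinearMap.zero_apply, smul_zero,
        Submodule.Quotient.mk_zero]
    · intro h
      exact absurd (Finset.mem_univ _) h
  have hw : (Submodule.Quotient.mk w : H.ρ.V ⧸ (I • (⊤ : Submodule T H.ρ.V))) =
      ∑ g ∈ t.support, Submodule.Quotient.mk (t g • H.ρ.ρ g (e 0)) := by
    rw [← hX, hX2, LinearMap.sum_apply, ← Submodule.mkQ_apply, map_sum]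
    rfl
  rw [← AddMonoidHom.mem_range, hw]
  exact AddSubgroup.sum_mem _ fun g _ => hterm (t g) g

include ι in
/-- **(T6) The finite-level corollary of the transfer theorem.** For every ideal `I` of finite
index in `T`, the Galois module `V ⧸ I V` is an equivariant quotient of a Galois-stable subgroup
of a finite product of copies of the Eichler–Shimura lattice modulo `p ^ n`. -/
theorem exists_finite_level [Finite (ResidueField T)] (hdens : FrobDensity) (hpS : p ∈ S)
    (hNS : ∀ q : ℕ, q.Prime → q ∣ N → q ∈ S) (hpT : (p : T) ∈ maximalIdeal T)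
    (I : Ideal T) [Finite (T ⧸ I)] :
    ∃ (n : ℕ) (Y : AddSubgroup ((T ⧸ I) × Fin D.r → Fin D.r → ZMod (p ^ n)))
      (f : Y →+ H.ρ.V ⧸ (I • (⊤ : Submodule T H.ρ.V))),
      Function.Surjective f ∧
      ∀ (σ : GQ) (y : Y),
        ∃ hy : vecAct D n σ (y : (T ⧸ I) × Fin D.r → Fin D.r → ZMod (p ^ n)) ∈ Y,
          f ⟨_, hy⟩ = H.ρ.levelAction I σ (f y) := by
  classical
  cases nonempty_fintype (T ⧸ I)
  let e : Module.Basis (Fin 2) T H.ρ.V := Module.finBasisOfFinrankEq T H.ρ.V H.ρ.finrank_eq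
  obtain ⟨-, hspan⟩ := rigid H.ρ H.residual_absIrr e
  obtain ⟨m, hm⟩ := exists_pow_mem (p := p) hpT I
  obtain ⟨k, hk⟩ := exists_sat_evD D S
  let o : T ⧸ I → T := Function.surjInv Ideal.Quotient.mk_surjective
  have ho : ∀ q, Ideal.Quotient.mk I (o q) = q := Function.surjInv_eq _
  let rP := redP D S (m + k) (T ⧸ I)
  let eP := evP H ι I o (e 0)
  have hker : rP.rangeRestrict.ker ≤ eP.ker := by
    intro c hc
    rw [AddMonoidHom.ker_rangeRestrict, AddMonoidHom.mem_ker] at hc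
    exact AddMonoidHom.mem_ker.mpr
      (evP_eq_zero_of_redP D H ι hdens hpS hNS hpT I o (e 0) m k hm hk c hc)
  let f : rP.range →+ H.ρ.V ⧸ (I • (⊤ : Submodule T H.ρ.V)) :=
    rP.rangeRestrict.liftOfSurjective rP.rangeRestrict_surjective ⟨eP, hker⟩
  have hf : ∀ c, f (rP.rangeRestrict c) = eP c := fun c =>
    AddMonoidHom.liftOfRightInverse_comp_apply _ _ _ ⟨eP, hker⟩ c
  refine ⟨m + k, rP.range, f, ?_, ?_⟩
  · intro x
    obtain ⟨c, rfl⟩ := evP_surjective H ι I o ho e hspan x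
    exact ⟨rP.rangeRestrict c, hf c⟩
  · rintro σ ⟨y, c, rfl⟩
    have h1 : rP (fun q => trans S σ (c q)) = vecAct D (m + k) σ (rP c) :=
      redP_trans D (m + k) (T ⧸ I) σ c
    refine ⟨⟨_, h1⟩, ?_⟩
    have h2 : (⟨vecAct D (m + k) σ (rP c), ⟨_, h1⟩⟩ : rP.range) =
        rP.rangeRestrict (fun q => trans S σ (c q)) := Subtype.ext h1.symm
    have h3 : (⟨rP c, ⟨c, rfl⟩⟩ : rP.range) = rP.rangeRestrict c := rfl
    rw [h2, h3, hf, hf]
    exact evP_trans H ι I o (e 0) σ c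

end Datum

end Fermat.Agent.S32.FiniteLevel
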