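/-
S32 half, file E (helper246): the finite-level corollary (T6) in hom-valued form, indexed by
`Fin s` (the shape consumed by the closure lemmas sub / quot / pi).

`V ⧸ I V` is the target of a surjective equivariant hom `q` from a group `G'` which embeds
equivariantly (`j`) into `Fin s → (ℤ/pⁿ)^r`, Galois acting on every copy by `mulVec` with the
matrices of the Eichler–Shimura lattice modulo `pⁿ`.
-/
import Mathlib
import Fermat.Prelude.Def_CuspForm_HeckeGaloisRepDatum
import Fermat.Prelude.Def_GaloisRep_Flat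
import Fermat.Agent.S30.Defs
import Fermat.Agent.S31.Glue
import Fermat.Agent.S32.FiniteLevel

set_option autoImplicit false

noncomputable section

namespace Fermat.Agent.S32.FiniteLevel

open Fermat.Agent.S30 Fermat.Agent.S31.Glue IsLocalRing Matrix

variable {N p : ℕ} [NeZero N] [Fact p.Prime] (D : ESData N p) {S : Finset ℕ}
  {𝒪 : Type} [CommRing 𝒪] [IsDomain 𝒪] [IsDiscreteValuationRing 𝒪]
  [IsAdicComplete (IsLocalRing.maximalIdeal 𝒪) 𝒪]
  {θ : CuspForm.heckeAlgebra N 2 (↑S : Set ℕ) →+* IsLocalRing.ResidueField 𝒪}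
  {T : Type} [CommRing T] [IsLocalRing T] [IsNoetherianRing T]
  [IsAdicComplete (IsLocalRing.maximalIdeal T) T] [Algebra 𝒪 T] [IsLocalHom (algebraMap 𝒪 T)]
  [Module.Finite 𝒪 T] [Module.Free 𝒪 T]
  (H : CuspForm.HeckeGaloisRepDatum N (↑S : Set ℕ) 𝒪 θ T)

/-- **(T6), hom-valued form.** -/
theorem exists_finite_level_hom (ι : ℤ_[p] →+* T) [Finite (ResidueField T)]
    (hdens : FrobDensity) (hpS : p ∈ S)
    (hNS : ∀ q : ℕ, q.Prime → q ∣ N → q ∈ S) (hpT : (p : T) ∈ maximalIdeal T)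
    (I : Ideal T) [Finite (T ⧸ I)] :
    ∃ (n s : ℕ) (G' : Type) (_ : AddCommGroup G') (act' : GQ → G' → G')
      (j : G' →+ (Fin s → Fin D.r → ZMod (p ^ n)))
      (q : G' →+ H.ρ.V ⧸ (I • (⊤ : Submodule T H.ρ.V))),
      Function.Injective j ∧
      (∀ σ x, j (act' σ x) = fun i => (D.ρ σ).map (PadicInt.toZModPow n) *ᵥ j x i) ∧
      Function.Surjective q ∧
      ∀ σ x, q (act' σ x) = H.ρ.levelAction I σ (q x) := by
  classical
  obtain ⟨n, Y, f, hf, hact⟩ := exists_finite_level D H ι hdens hpS hNS hpT I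
  cases nonempty_fintype (T ⧸ I)
  let eqv : (T ⧸ I) × Fin D.r ≃ Fin (Fintype.card ((T ⧸ I) × Fin D.r)) := Fintype.equivFin _
  let act' : GQ → Y → Y := fun σ y => ⟨vecAct D n σ y, (hact σ y).choose⟩
  let j : Y →+ (Fin (Fintype.card ((T ⧸ I) × Fin D.r)) → Fin D.r → ZMod (p ^ n)) :=
    { toFun := fun y i => (y : (T ⧸ I) × Fin D.r → Fin D.r → ZMod (p ^ n)) (eqv.symm i)
      map_zero' := rfl
      map_add' := fun _ _ => rfl }
  refine ⟨n, _, Y, inferInstance, act', j, f, ?_, ?_, hf, ?_⟩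
  · intro y y' h
    apply Subtype.ext
    funext k
    have h1 := congrFun h (eqv k)
    simpa [j] using h1
  · intro σ x
    rfl
  · intro σ x
    exact (hact σ x).choose_spec

end Fermat.Agent.S32.FiniteLevel
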