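/-
S32 half, file F (helper246): the finite-level corollary (T6) under the frozen hypotheses of S32
(no auxiliary input left: the ring hom `ℤ_p → T`, Frobenius density, `p ∈ 𝔪_T` and the finiteness
of the residue field of `T` are supplied here).
-/
import Mathlib
import Fermat.Prelude.Def_CuspForm_HeckeGaloisRepDatum
import Fermat.Prelude.Def_GaloisRep_Flat
import Fermat.Agent.S30.Defs
import Fermat.Agent.S30.PadicHom
import Fermat.Agent.Lib.FrobDensity.Lift
import Fermat.Agent.S31.Glue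
import Fermat.Agent.S32.FiniteLevelHom

set_option autoImplicit false

noncomputable section

namespace Fermat.Agent.S32.Datum

open Fermat.Agent.S30 Fermat.Agent.S31.Glue IsLocalRing Matrix

variable {p : ℕ} {N : ℕ} [NeZero N] {S : Finset ℕ}
  {𝒪 : Type} [CommRing 𝒪] [IsDomain 𝒪] [IsDiscreteValuationRing 𝒪]
  [IsAdicComplete (IsLocalRing.maximalIdeal 𝒪) 𝒪]
  {θ : CuspForm.heckeAlgebra N 2 (↑S : Set ℕ) →+* IsLocalRing.ResidueField 𝒪}
  {T : Type} [CommRing T] [IsLocalRing T] [IsNoetherianRing T]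
  [IsAdicComplete (IsLocalRing.maximalIdeal T) T] [Algebra 𝒪 T] [IsLocalHom (algebraMap 𝒪 T)]
  [Module.Finite 𝒪 T] [Module.Free 𝒪 T]

/-- The residue field of `T` is finite when that of `𝒪` is. -/
theorem finite_residueField [Finite (ResidueField 𝒪)]
    (H : CuspForm.HeckeGaloisRepDatum N (↑S : Set ℕ) 𝒪 θ T) : Finite (ResidueField T) := by
  refine Finite.of_surjective (ResidueField.map (algebraMap 𝒪 T)) fun y => ?_
  obtain ⟨x, hx⟩ := H.residue_surjective y
  exact ⟨residue 𝒪 x, by rw [ResidueField.map_residue]; exact hx⟩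

omit [NeZero N] [IsDomain 𝒪] [IsDiscreteValuationRing 𝒪] [IsAdicComplete (maximalIdeal 𝒪) 𝒪]
  [IsNoetherianRing T] [IsAdicComplete (maximalIdeal T) T] [Module.Finite 𝒪 T]
  [Module.Free 𝒪 T] in
/-- `p` lies in the maximal ideal of `T`. -/
theorem natCast_mem_maximalIdeal [IsLocalRing 𝒪] (hp𝒪 : (p : 𝒪) ∈ maximalIdeal 𝒪) :
    (p : T) ∈ maximalIdeal T := by
  have h1 : (p : T) = algebraMap 𝒪 T (p : 𝒪) := (map_natCast (algebraMap 𝒪 T) p).symm
  rw [h1]
  exact map_nonunit (algebraMap 𝒪 T) (p : 𝒪) hp𝒪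

/-- Frobenius density in power form (`Lib/FrobDensity`). -/
theorem frobDensity : FrobDensity := fun L _ S g =>
  Fermat.Agent.Lib.FrobDensity.exists_frobenius_pow_eq L S g

/-- **(T6) under the frozen hypotheses of S32.** -/
theorem exists_finite_level_frozen [Fact p.Prime] [Finite (ResidueField 𝒪)]
    (hp𝒪 : (p : 𝒪) ∈ maximalIdeal 𝒪) (hpS : p ∈ S)
    (hNS : ∀ q : ℕ, q.Prime → q ∣ N → q ∈ S)
    (H : CuspForm.HeckeGaloisRepDatum N (↑S : Set ℕ) 𝒪 θ T) (D : ESData N p)
    (I : Ideal T) [Finite (T ⧸ I)] :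
    ∃ (n s : ℕ) (G' : Type) (_ : AddCommGroup G') (act' : GQ → G' → G')
      (j : G' →+ (Fin s → Fin D.r → ZMod (p ^ n)))
      (q : G' →+ H.ρ.V ⧸ (I • (⊤ : Submodule T H.ρ.V))),
      Function.Injective j ∧
      (∀ σ x, j (act' σ x) = fun i => (D.ρ σ).map (PadicInt.toZModPow n) *ᵥ j x i) ∧
      Function.Surjective q ∧
      ∀ σ x, q (act' σ x) = H.ρ.levelAction I σ (q x) := by
  have := finite_residueField H
  exact FiniteLevel.exists_finite_level_hom D H
    ((algebraMap 𝒪 T).comp (PadicHom.padicIntRingHom p 𝒪 hp𝒪)) frobDensity hpS hNS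
    (natCast_mem_maximalIdeal hp𝒪) I

end Fermat.Agent.S32.Datum
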