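/-
S32, the final glue (helper246): `(frozen S19 at (N, p, all k)) + (BASE link) ⟹ H.ρ.IsFlatAt p`.

The chain, for a finite quotient `T ⧸ I`:

* frozen S19 at `(N, p, n)` gives a Hopf order of functions on `J₀(N)[pⁿ]` with the Galois action
  `torsAct` (`exists_order_of_hopf`, the converse of the consumer; helper235);
* the (BASE) link `φ : (ℤ/pⁿ)^r ↪ J₀(N)[pⁿ]`, equivariant for the reduction of `D.ρ`, restricts the
  order to `(ℤ/pⁿ)^r` (`HasOrder.of_injective`), then `HasOrder.pi` gives `((ℤ/pⁿ)^r)^s`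
  (helper133's closure);
* (T6) (`Datum.exists_finite_level_frozen`): `H.ρ.V ⧸ I • ⊤` is an equivariant quotient of an
  equivariant subgroup of `((ℤ/pⁿ)^r)^s`, so it carries an order (`of_injective`, `of_surjective`);
* `HasOrder.exists_hopf` is the frozen existential of `IsFlatAt`.

Exits:
* `S19At N p k`              : the frozen S19 existential at level `N`, prime `p`, exponent `k`;
* `hasOrder_torsion`         : `S19At N p k → HasOrder p J₀(N)[p^k] torsAct`;
* `isFlatAt_of_link`         : the glue, with (BASE) and `∀ k, S19At N p k` as hypotheses.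
-/
import Mathlib
import Fermat.Prelude.Def_CuspForm_HeckeGaloisRepDatum
import Fermat.Prelude.Def_GaloisRep_Flat
import Fermat.Prelude.Def_ModularCurve_ArithmeticGalois
import Fermat.Agent.S19.HopfOrder.Converse
import Fermat.Agent.S32.Closure.Sub
import Fermat.Agent.S32.Closure.Prod
import Fermat.Agent.S32.Closure.Quot
import Fermat.Agent.S32.Datum

set_option autoImplicit false

noncomputable section

namespace Fermat.Agent.S32.Main

open Fermat.Agent.S30 Fermat.Agent.S19.HopfOrder Fermat.Agent.S32.Closure GaloisRep ModularCurve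
  IsLocalRing Matrix

/-- The frozen S19 existential at level `N`, prime `p`, exponent `k`. -/
def S19At (N : ℕ) [NeZero N] (p : ℕ) (k : ℕ) : Prop :=
  ∃ (H : Type) (_ : CommRing H) (_ : HopfAlgebra (GaloisRep.ratLocalizedAt p) H),
    Module.Finite (GaloisRep.ratLocalizedAt p) H ∧ Module.Flat (GaloisRep.ratLocalizedAt p) H ∧
    Coalgebra.IsCocomm (GaloisRep.ratLocalizedAt p) H ∧
    ∃ e : WithConv (H →ₐ[GaloisRep.ratLocalizedAt p] AlgebraicClosure ℚ) ≃
        ↥(Submodule.torsionBy ℤ (JZero N) ((p : ℤ) ^ k)),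
      (∀ f g, e (f * g) = e f + e g) ∧
      ∀ (σ : AlgebraicClosure ℚ ≃ₐ[ℚ] AlgebraicClosure ℚ)
        (f g : WithConv (H →ₐ[GaloisRep.ratLocalizedAt p] AlgebraicClosure ℚ)),
        (∀ h : H, g h = σ (f h)) → ((e g : JZero N)) = σ • (e f : JZero N)

/-- Frozen S19 at `(N, p, k)` gives a Hopf order of functions on `J₀(N)[p^k]`. -/
theorem hasOrder_torsion (N : ℕ) [NeZero N] (p : ℕ) (k : ℕ) (h : S19At N p k) :
    HasOrder p ↥(Submodule.torsionBy ℤ (JZero N) ((p : ℤ) ^ k))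
      (fun (σ : Gal) x => torsAct ((p : ℤ) ^ k) σ x) := by
  obtain ⟨H, i1, i2, hfin, -, -, e, hadd, heq⟩ := h
  obtain ⟨K, hfg, hKeq, hsep, hΔ⟩ :=
    exists_order_of_hopf p (fun (σ : Gal) x => torsAct ((p : ℤ) ^ k) σ x) H e hadd
      (fun σ f g hfg => Subtype.ext ((heq σ f g hfg).trans (coe_torsAct _ σ (e f)).symm))
  exact ⟨K, inferInstance, inferInstance, K.val, isOrder_of_subalgebra p _ K hfg hKeq hsep hΔ⟩

variable {p : ℕ} {N : ℕ} [NeZero N] {S : Finset ℕ}
  {𝒪 : Type} [CommRing 𝒪] [IsDomain 𝒪] [IsDiscreteValuationRing 𝒪]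
  [IsAdicComplete (IsLocalRing.maximalIdeal 𝒪) 𝒪]
  {θ : CuspForm.heckeAlgebra N 2 (↑S : Set ℕ) →+* IsLocalRing.ResidueField 𝒪}
  {T : Type} [CommRing T] [IsLocalRing T] [IsNoetherianRing T]
  [IsAdicComplete (IsLocalRing.maximalIdeal T) T] [Algebra 𝒪 T] [IsLocalHom (algebraMap 𝒪 T)]
  [Module.Finite 𝒪 T] [Module.Free 𝒪 T]

/-- **The glue.**  With the (BASE) link and the frozen S19 at `(N, p, k)` for all `k`, the Hecke
Galois representation is flat at `p`. -/
theorem isFlatAt_of_link [Fact p.Prime] [Finite (ResidueField 𝒪)]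
    (hp𝒪 : (p : 𝒪) ∈ maximalIdeal 𝒪) (hpS : p ∈ S)
    (hNS : ∀ q : ℕ, q.Prime → q ∣ N → q ∈ S)
    (H : CuspForm.HeckeGaloisRepDatum N (↑S : Set ℕ) 𝒪 θ T)
    (hbase : ∃ D : ESData N p, ∀ n : ℕ,
      ∃ φ : (Fin D.r → ZMod (p ^ n)) →+ ↥(Submodule.torsionBy ℤ (JZero N) ((p : ℤ) ^ n)),
        Function.Injective φ ∧ ∀ (σ : GQ) (v : Fin D.r → ZMod (p ^ n)),
          φ ((D.ρ σ).map (PadicInt.toZModPow n) *ᵥ v) = torsAct ((p : ℤ) ^ n) σ (φ v))
    (hS19 : ∀ k : ℕ, S19At N p k) :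
    H.ρ.IsFlatAt p := by
  obtain ⟨D, hD⟩ := hbase
  refine ⟨Datum.finite_residueField H, fun I hI => ?_⟩
  have := hI
  obtain ⟨n, s, G', _, act', j, q, hj, hjact, hq, hqact⟩ :=
    Datum.exists_finite_level_frozen hp𝒪 hpS hNS H D I
  obtain ⟨φ, hφ, hφact⟩ := hD n
  have h1 : HasOrder p (Fin D.r → ZMod (p ^ n))
      (fun (σ : Gal) v => (D.ρ σ).map (PadicInt.toZModPow n) *ᵥ v) :=
    (hasOrder_torsion N p n (hS19 n)).of_injective φ hφ hφact
  have h2 : HasOrder p G' act' := (h1.pi s).of_injective j hj hjact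
  have h3 : HasOrder p (H.ρ.V ⧸ (I • (⊤ : Submodule T H.ρ.V)))
      (fun (σ : Gal) x => H.ρ.levelAction I σ x) := h2.of_surjective q hq hqact
  exact h3.exists_hopf

end Fermat.Agent.S32.Main
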