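/-
S32, the junction file (helper246): the frozen S32 conclusion from the frozen S19 type alone.

`isFlatAt_of_S19At` = `Main.isFlatAt_of_link` with the (BASE) link discharged by
`Link.Base.exists_esData_torsion_embed` (helper190 / helper13).  The only hypothesis left is the
frozen S19 existential at level `N`, prime `p` and every exponent `k` (`Main.S19At N p k`), so
`Fermat.Agent.S32.result` is this theorem applied to `fun k => Fermat.Agent.S19.result N p hpN k`.
-/
import Mathlib
import Fermat.Prelude.Def_CuspForm_HeckeGaloisRepDatum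
import Fermat.Prelude.Def_GaloisRep_Flat
import Fermat.Agent.S32.Link.Base
import Fermat.Agent.S32.Main

set_option autoImplicit false

namespace Fermat.Agent.S32.Final

variable {p : ℕ} {N : ℕ} [NeZero N] {S : Finset ℕ}
  {𝒪 : Type} [CommRing 𝒪] [IsDomain 𝒪] [IsDiscreteValuationRing 𝒪]
  [IsAdicComplete (IsLocalRing.maximalIdeal 𝒪) 𝒪]
  {θ : CuspForm.heckeAlgebra N 2 (↑S : Set ℕ) →+* IsLocalRing.ResidueField 𝒪}
  {T : Type} [CommRing T] [IsLocalRing T] [IsNoetherianRing T]
  [IsAdicComplete (IsLocalRing.maximalIdeal T) T] [Algebra 𝒪 T] [IsLocalHom (algebraMap 𝒪 T)]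
  [Module.Finite 𝒪 T] [Module.Free 𝒪 T]

/-- **S32 from the frozen S19 type.**  If the frozen S19 existential holds at level `N`, prime `p`
and every exponent, the Hecke Galois representation is flat at `p`. -/
theorem isFlatAt_of_S19At [Finite (IsLocalRing.ResidueField 𝒪)] (hp : p.Prime)
    (hp𝒪 : (p : 𝒪) ∈ IsLocalRing.maximalIdeal 𝒪) (hpS : p ∈ S)
    (hNS : ∀ q : ℕ, q.Prime → q ∣ N → q ∈ S)
    (H : CuspForm.HeckeGaloisRepDatum N (↑S : Set ℕ) 𝒪 θ T)
    (hS19 : ∀ k : ℕ, Fermat.Agent.S32.Main.S19At N p k) : H.ρ.IsFlatAt p := by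
  have : Fact p.Prime := ⟨hp⟩
  exact Fermat.Agent.S32.Main.isFlatAt_of_link hp𝒪 hpS hNS H
    (Fermat.Agent.S32.Link.Base.exists_esData_torsion_embed N p) hS19

end Fermat.Agent.S32.Final
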