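/-
S32 API addendum (helper246): the map `piR : Rp → T` on the elements consumers meet, and the
transfer theorem with coefficients in the Hecke ring `Rp` itself.

* `exists_pip_of_mem`      : every `U : Rp` is `mpp Q` for a polynomial `Q` with `pip Q = piR U`;
* `piR_algebraMap`, `piR_epsR`, `piR_natCast` : `piR` on `ℤ_p` (through `ι`);
* `piR_tauR`               : `piR (τ_D g) = tr H.ρ(g)`;
* `isUnit_piR_of_notMem`   : elements outside `comap piR 𝔪_T` map to units;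
* `natCast_mem_comap_piR`  : `p ∈ comap piR 𝔪_T`;
* `relation_transfer_Rp`   : `∑ U_i ρ_D(g_i) = 0` with `U_i ∈ Rp` gives `∑ piR(U_i) • H.ρ(g_i) = 0`.
-/
import Mathlib
import Fermat.Prelude.Def_CuspForm_HeckeGaloisRepDatum
import Fermat.Agent.S30.Defs
import Fermat.Agent.S30.CycloChar
import Fermat.Agent.S31.Glue
import Fermat.Agent.S32.HeckeRing
import Fermat.Agent.S32.Tau
import Fermat.Agent.S32.Transfer

set_option autoImplicit false

noncomputable section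

namespace Fermat.Agent.S32.PiR

open Fermat.Agent.S30 Fermat.Agent.S31.Glue Fermat.Agent.S32.HeckeRing Fermat.Agent.S32.Tau
  Fermat.Agent.S32.Transfer IsLocalRing Matrix

/-- Expansion of `a • ((A - c) * (B - 1))` in an algebra. -/
theorem smul_sub_mul_sub_one {R M : Type*} [CommRing R] [Ring M] [Algebra R M] (a c : R)
    (A B : M) :
    a • ((A - algebraMap R M c) * (B - 1)) =
      a • (A * B) + (-a) • A + (-(a * c)) • B + (a * c) • (1 : M) := by
  have e1 : (A - algebraMap R M c) * (B - 1) = A * B - A - c • B + c • (1 : M) := by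
    rw [Algebra.algebraMap_eq_smul_one, sub_mul, mul_sub, mul_sub, mul_one, mul_one,
      smul_mul_assoc, one_mul]
    abel
  rw [e1, smul_add, smul_sub, smul_sub, smul_smul, smul_smul, neg_smul, neg_smul]
  abel

variable {N p : ℕ} [NeZero N] [Fact p.Prime] (D : ESData N p) {S : Finset ℕ}
  {𝒪 : Type} [CommRing 𝒪] [IsDomain 𝒪] [IsDiscreteValuationRing 𝒪]
  [IsAdicComplete (IsLocalRing.maximalIdeal 𝒪) 𝒪]
  {θ : CuspForm.heckeAlgebra N 2 (↑S : Set ℕ) →+* IsLocalRing.ResidueField 𝒪}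
  {T : Type} [CommRing T] [IsLocalRing T] [IsNoetherianRing T]
  [IsAdicComplete (IsLocalRing.maximalIdeal T) T] [Algebra 𝒪 T] [IsLocalHom (algebraMap 𝒪 T)]
  [Module.Finite 𝒪 T] [Module.Free 𝒪 T]
  (H : CuspForm.HeckeGaloisRepDatum N (↑S : Set ℕ) 𝒪 θ T) (ι : ℤ_[p] →+* T)
  (hpS : p ∈ S) (hpT : (p : T) ∈ maximalIdeal T)

/-- Every element of the Hecke ring is the value of a polynomial, whose image in `T` is `piR`. -/
theorem exists_pip_of_mem (U : Rp D S) :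
    ∃ Q : MvPolynomial (Idx N S) ℤ_[p],
      mpp D S Q = (U : Matrix (Fin D.r) (Fin D.r) ℤ_[p]) ∧ pip H ι Q = piR D H ι hpS hpT U := by
  obtain ⟨Q, hQ⟩ := mpp_surjective D S U.2
  refine ⟨Q, hQ, ?_⟩
  have h1 : U = ap D S Q := Subtype.ext hQ.symm
  rw [h1, piR_ap]

/-- `piR` on the scalars `ℤ_p`. -/
theorem piR_algebraMap (a : ℤ_[p]) :
    piR D H ι hpS hpT (algebraMap ℤ_[p] (Rp D S) a) = ι a := by
  have h1 : algebraMap ℤ_[p] (Rp D S) a = ap D S (MvPolynomial.C a) := by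
    rw [← MvPolynomial.algebraMap_eq, AlgHom.commutes]
  rw [h1, piR_ap, pip_C]

/-- `piR` on the cyclotomic character. -/
theorem piR_epsR (g : GQ) :
    piR D H ι hpS hpT ((epsR D S g : (Rp D S)ˣ) : Rp D S) =
      ι ((CycloChar.eps p g : ℤ_[p]ˣ) : ℤ_[p]) :=
  piR_algebraMap D H ι hpS hpT _

/-- `piR` on natural numbers. -/
theorem piR_natCast (n : ℕ) : piR D H ι hpS hpT (n : Rp D S) = (n : T) :=
  map_natCast _ n

/-- `p` lies in the preimage of the maximal ideal. -/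
theorem natCast_mem_comap_piR :
    (p : Rp D S) ∈ Ideal.comap (piR D H ι hpS hpT) (maximalIdeal T) := by
  rw [Ideal.mem_comap, piR_natCast]
  exact hpT

/-- Elements outside the preimage of the maximal ideal map to units of `T`. -/
theorem isUnit_piR_of_notMem {U : Rp D S}
    (hU : U ∉ Ideal.comap (piR D H ι hpS hpT) (maximalIdeal T)) :
    IsUnit (piR D H ι hpS hpT U) := by
  by_contra h
  exact hU ((IsLocalRing.mem_maximalIdeal _).mpr h)

/-- **The trace formula in `Rp`.** -/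
theorem piR_tauR (hdens : FrobDensity) (hNS : ∀ q : ℕ, q.Prime → q ∣ N → q ∈ S) (g : GQ) :
    piR D H ι hpS hpT (tauR D S hdens hpS hNS g) = LinearMap.trace T H.ρ.V (H.ρ.ρ g) := by
  obtain ⟨Q₀, hQ₀⟩ := exists_tau D S hdens hpS hNS g
  have h1 : tauR D S hdens hpS hNS g = ap D S Q₀ := Subtype.ext hQ₀.symm
  rw [h1, piR_ap, pip_eq_trace D H hdens hpS hNS hpT ι g Q₀ hQ₀]

/-- **Transfer with coefficients in the Hecke ring.** -/
theorem relation_transfer_Rp [Finite (ResidueField T)] (hdens : FrobDensity)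
    (hNS : ∀ q : ℕ, q.Prime → q ∣ N → q ∈ S)
    {κ : Type*} (s : Finset κ) (U : κ → Rp D S) (g : κ → GQ)
    (h0 : ∑ i ∈ s, (U i : Matrix (Fin D.r) (Fin D.r) ℤ_[p]) * D.ρ (g i) = 0) :
    ∑ i ∈ s, piR D H ι hpS hpT (U i) • H.ρ.ρ (g i) = 0 := by
  choose Q hQ hQ' using fun i => exists_pip_of_mem D H ι hpS hpT (U i)
  have h1 : ∑ i ∈ s, mpp D S (Q i) * D.ρ (g i) = 0 := by
    rw [← h0]
    exact Finset.sum_congr rfl fun i _ => by rw [hQ i]
  have h2 := relation_transfer D H ι hdens hpS hNS hpT s Q g h1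
  rw [← h2]
  exact Finset.sum_congr rfl fun i _ => by rw [hQ' i]

/-- **The ordinary relation in `End_T(V)`.**  If `U ∈ Rp` kills
`(ρ_D σ - ε σ)(ρ_D τ - 1)`, then `piR U` kills `(H.ρ σ - ι (ε σ))(H.ρ τ - 1)`. -/
theorem ordRel_transfer [Finite (ResidueField T)] (hdens : FrobDensity)
    (hNS : ∀ q : ℕ, q.Prime → q ∣ N → q ∈ S) (U : Rp D S) (σ τ : GQ)
    (h : (U : Matrix (Fin D.r) (Fin D.r) ℤ_[p]) *
      ((D.ρ σ - algebraMap ℤ_[p] (Matrix (Fin D.r) (Fin D.r) ℤ_[p])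
        ((CycloChar.eps p σ : ℤ_[p]ˣ) : ℤ_[p])) * (D.ρ τ - 1)) = 0) :
    piR D H ι hpS hpT U •
      ((H.ρ.ρ σ - algebraMap T (Module.End T H.ρ.V) (ι ((CycloChar.eps p σ : ℤ_[p]ˣ) : ℤ_[p]))) *
        (H.ρ.ρ τ - 1)) = 0 := by
  classical
  set E : Rp D S := algebraMap ℤ_[p] (Rp D S) ((CycloChar.eps p σ : ℤ_[p]ˣ) : ℤ_[p]) with hE
  have hEc : (E : Matrix (Fin D.r) (Fin D.r) ℤ_[p]) =
      algebraMap ℤ_[p] (Matrix (Fin D.r) (Fin D.r) ℤ_[p])
        ((CycloChar.eps p σ : ℤ_[p]ˣ) : ℤ_[p]) := rfl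
  -- the four-term relation
  let Uf : Fin 4 → Rp D S := ![U, -U, -(U * E), U * E]
  let gf : Fin 4 → GQ := ![σ * τ, σ, τ, 1]
  have h0 : ∑ i : Fin 4, (Uf i : Matrix (Fin D.r) (Fin D.r) ℤ_[p]) * D.ρ (gf i) = 0 := by
    simp only [Fin.sum_univ_four, Uf, gf, Matrix.cons_val_zero, Matrix.cons_val_one,
      Matrix.cons_val_two, Matrix.cons_val_three, Matrix.head_cons, Matrix.tail_cons,
      map_mul, map_one]
    have hcomm : (E : Matrix (Fin D.r) (Fin D.r) ℤ_[p]) * D.ρ τ = D.ρ τ * E := by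
      rw [hEc]
      exact Algebra.commutes _ _
    have e1 : (U : Matrix (Fin D.r) (Fin D.r) ℤ_[p]) * (D.ρ σ * D.ρ τ) +
        ((-U : Rp D S) : Matrix (Fin D.r) (Fin D.r) ℤ_[p]) * D.ρ σ +
        ((-(U * E) : Rp D S) : Matrix (Fin D.r) (Fin D.r) ℤ_[p]) * D.ρ τ +
        ((U * E : Rp D S) : Matrix (Fin D.r) (Fin D.r) ℤ_[p]) * 1 =
        (U : Matrix (Fin D.r) (Fin D.r) ℤ_[p]) *
          ((D.ρ σ - (E : Matrix (Fin D.r) (Fin D.r) ℤ_[p])) * (D.ρ τ - 1)) := by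
      simp only [Subalgebra.coe_neg, Subalgebra.coe_mul]
      noncomm_ring
    rw [e1, hEc]
    exact h
  have h1 := relation_transfer_Rp D H ι hpS hpT hdens hNS Finset.univ Uf gf h0
  simp only [Fin.sum_univ_four, Uf, gf, Matrix.cons_val_zero, Matrix.cons_val_one,
    Matrix.cons_val_two, Matrix.cons_val_three, Matrix.head_cons, Matrix.tail_cons,
    map_mul, map_one, map_neg] at h1
  have hEι : piR D H ι hpS hpT E = ι ((CycloChar.eps p σ : ℤ_[p]ˣ) : ℤ_[p]) :=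
    piR_algebraMap D H ι hpS hpT _
  rw [hEι] at h1
  rw [← h1]
  exact smul_sub_mul_sub_one _ _ _ _

end Fermat.Agent.S32.PiR
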